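import Fermat.Agent.AbelianQuartic.Tally
import Mathlib.Algebra.BigOperators.Fin
import Mathlib.Data.ZMod.Basic

/-!
# Tuples of quadratic characters

A tuple of `r` characters killed by two gives a character for every vector of `(ℤ/2)^r`; the
number of tuples by the product of all these conductors is multiplicative.
-/

set_option autoImplicit false
set_option linter.style.haveILetI false

noncomputable section

open DirichletCharacter
open FA.AbelianQuartic (joinChar joinChar_injective joinChar_bijective conductor_joinChar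
  exists_changeLevel)
open scoped Classical

namespace FA.ElementaryAbelianCount

/-- A tuple of characters mod `N`. -/
abbrev CharTuple (r N : ℕ) := Fin r → DirichletCharacter ℂ N

variable {r N : ℕ}

/-- The tuple is killed by two. -/
def Killed (v : CharTuple r N) : Prop := ∀ i, v i ^ 2 = 1

/-- The combination of a tuple along a vector of `(ℤ/2)^r`. -/
def comb {M : Type*} [CommMonoid M] (v : Fin r → M) (w : Fin r → ZMod 2) : M :=
  ∏ i, v i ^ (w i).val

/-- The product of the conductors of the combinations. -/
def tupleCond (v : CharTuple r N) : ℕ := ∏ w : Fin r → ZMod 2, (comb v w).conductor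

theorem comb_single {M : Type*} [CommMonoid M] (v : Fin r → M) (i : Fin r) :
    comb v (Pi.single i 1) = v i := by
  rw [comb, Finset.prod_eq_single i (fun j _ hj => by
    rw [Pi.single_eq_of_ne hj, ZMod.val_zero, pow_zero]) (fun h => absurd (Finset.mem_univ i) h),
    Pi.single_eq_same, ZMod.val_one, pow_one]

theorem comb_zero {M : Type*} [CommMonoid M] (v : Fin r → M) : comb v 0 = 1 := by
  refine Finset.prod_eq_one fun i _ => ?_
  rw [Pi.zero_apply, ZMod.val_zero, pow_zero]

theorem comb_add {M : Type*} [CommMonoid M] {v : Fin r → M} (h : ∀ i, v i ^ 2 = 1)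
    (w w' : Fin r → ZMod 2) : comb v (w + w') = comb v w * comb v w' := by
  rw [comb, comb, comb, ← Finset.prod_mul_distrib]
  refine Finset.prod_congr rfl fun i _ => ?_
  rw [← pow_add, Pi.add_apply, ZMod.val_add]
  exact (pow_eq_pow_mod _ (h i)).symm

theorem conductor_dvd_tupleCond (v : CharTuple r N) (i : Fin r) :
    (v i).conductor ∣ tupleCond v := by
  conv_lhs => rw [← comb_single v i]
  exact Finset.dvd_prod_of_mem _ (Finset.mem_univ _)

theorem tupleCond_pos [NeZero N] (v : CharTuple r N) : 0 < tupleCond v :=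
  Nat.pos_of_ne_zero (Finset.prod_ne_zero_iff.mpr fun _ _ => conductor_ne_zero _)

/-- The tuples with product of conductors `d`. -/
def tupleTally (r N d : ℕ) : ℕ :=
  Nat.card {v : CharTuple r N // Killed v ∧ tupleCond v = d}

/-- The tuples by the product of their conductors. -/
def tupleCnt (r : ℕ) : ArithmeticFunction ℝ :=
  ⟨fun d => if d = 0 then 0 else (tupleTally r d d : ℝ), if_pos rfl⟩

theorem tupleCnt_apply {d : ℕ} (hd : d ≠ 0) : tupleCnt r d = (tupleTally r d d : ℝ) := if_neg hd

theorem tupleCnt_nonneg (d : ℕ) : 0 ≤ tupleCnt r d := by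
  rcases eq_or_ne d 0 with rfl | hd
  · simp
  · rw [tupleCnt_apply hd]; exact Nat.cast_nonneg _

/-- Raise a tuple to a multiple of the level. -/
def liftTuple {m : ℕ} (h : m ∣ N) (v : CharTuple r m) : CharTuple r N :=
  fun i => changeLevel h (v i)

theorem comb_liftTuple {m : ℕ} (h : m ∣ N) (v : CharTuple r m) (w : Fin r → ZMod 2) :
    comb (liftTuple h v) w = changeLevel h (comb v w) := by
  simp only [comb, liftTuple, map_prod, map_pow]

theorem tupleCond_liftTuple [NeZero N] {m : ℕ} (h : m ∣ N) (v : CharTuple r m) :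
    tupleCond (liftTuple h v) = tupleCond v :=
  Finset.prod_congr rfl fun w _ => by rw [comb_liftTuple, conductor_changeLevel]

theorem killed_liftTuple [NeZero N] {m : ℕ} (h : m ∣ N) (v : CharTuple r m) :
    Killed (liftTuple h v) ↔ Killed v := by
  simp only [Killed, liftTuple, ← map_pow, map_eq_one_iff _ (changeLevel_injective h)]

theorem liftTuple_injective [NeZero N] {m : ℕ} (h : m ∣ N) :
    Function.Injective (liftTuple (r := r) h) := fun _ _ e =>
  funext fun i => changeLevel_injective h (congrFun e i)

/-- If every tuple comes from a lower level, so does the tally. -/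
theorem tupleTally_lower [NeZero N] {m : ℕ} (h : m ∣ N) (d : ℕ)
    (hcov : ∀ v : CharTuple r N, Killed v → tupleCond v = d → ∀ i, (v i).conductor ∣ m) :
    tupleTally r N d = tupleTally r m d := by
  refine (Nat.card_congr (Equiv.ofBijective
    (fun v : {v : CharTuple r m // Killed v ∧ tupleCond v = d} =>
      (⟨liftTuple h v.1, (killed_liftTuple h v.1).mpr v.2.1,
        (tupleCond_liftTuple h v.1).trans v.2.2⟩ :
        {v : CharTuple r N // Killed v ∧ tupleCond v = d}))
    ⟨fun _ _ e => Subtype.ext (liftTuple_injective h (congrArg Subtype.val e)), fun v => ?_⟩)).symm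
  obtain ⟨v, hv, hD⟩ := v
  choose w hw using fun i => exists_changeLevel h (hcov v hv hD i)
  obtain rfl : liftTuple h w = v := funext hw
  exact ⟨⟨w, (killed_liftTuple h w).mp hv, (tupleCond_liftTuple h w).symm.trans hD⟩, rfl⟩

theorem tupleTally_eq [NeZero N] {d : ℕ} (hd : d ∣ N) :
    tupleTally r N d = tupleTally r d d :=
  tupleTally_lower hd d fun v _ hD i => hD ▸ conductor_dvd_tupleCond v i

section CRT

variable {m n : ℕ} [NeZero m] [NeZero n]

/-- Join a tuple mod `m` and one mod `n`. -/
def joinTuple (v : CharTuple r m × CharTuple r n) : CharTuple r (m * n) :=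
  fun i => joinChar m n (v.1 i, v.2 i)

theorem joinTuple_bijective (hc : m.Coprime n) :
    Function.Bijective (joinTuple (r := r) (m := m) (n := n)) := by
  constructor
  · intro x y e
    have key := fun i => Prod.ext_iff.mp ((joinChar_bijective hc).1 (congrFun e i))
    exact Prod.ext (funext fun i => (key i).1) (funext fun i => (key i).2)
  · intro v
    choose u hu using fun i => (joinChar_bijective hc).2 (v i)
    exact ⟨(fun i => (u i).1, fun i => (u i).2), funext hu⟩

omit [NeZero m] [NeZero n] in
theorem comb_joinTuple (u : CharTuple r m) (v : CharTuple r n) (w : Fin r → ZMod 2) :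
    comb (joinTuple (u, v)) w = joinChar m n (comb u w, comb v w) := by
  simp only [comb, joinTuple, ← map_pow, ← map_prod]
  exact congrArg _ (Prod.ext (by simp [Prod.fst_prod]) (by simp [Prod.snd_prod]))

theorem killed_joinTuple (hc : m.Coprime n) (u : CharTuple r m) (v : CharTuple r n) :
    Killed (joinTuple (u, v)) ↔ Killed u ∧ Killed v := by
  simp only [Killed, joinTuple, ← map_pow, map_eq_one_iff _ (joinChar_injective hc), Prod.pow_mk,
    Prod.mk_eq_one]
  exact forall_and

theorem tupleCond_joinTuple (hc : m.Coprime n) (u : CharTuple r m) (v : CharTuple r n) :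
    tupleCond (joinTuple (u, v)) = tupleCond u * tupleCond v := by
  rw [tupleCond, tupleCond, tupleCond, ← Finset.prod_mul_distrib]
  refine Finset.prod_congr rfl fun w _ => ?_
  rw [comb_joinTuple, conductor_joinChar hc]

omit [NeZero m] [NeZero n] in
theorem tupleCond_coprime (hc : m.Coprime n) (u : CharTuple r m) : (tupleCond u).Coprime n :=
  Nat.Coprime.prod_left fun _ _ => hc.coprime_dvd_left (conductor_dvd_level _)

theorem tupleTally_mul (hc : m.Coprime n) :
    tupleTally r (m * n) (m * n) = tupleTally r m m * tupleTally r n n := by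
  unfold tupleTally
  rw [← Nat.card_prod]
  refine (Nat.card_congr ?_).symm
  refine (Equiv.subtypeProdEquivProd).symm.trans
    ((Equiv.ofBijective _ (joinTuple_bijective hc)).subtypeEquiv fun x => ?_)
  obtain ⟨u, v⟩ := x
  rw [Equiv.ofBijective_apply, killed_joinTuple hc, tupleCond_joinTuple hc]
  refine ⟨fun h => ⟨⟨h.1.1, h.2.1⟩, by rw [h.1.2, h.2.2]⟩, fun h => ?_⟩
  have e1 : tupleCond u = m := Nat.dvd_antisymm
    ((tupleCond_coprime hc u).dvd_of_dvd_mul_right (h.2 ▸ dvd_mul_right _ _))
    ((tupleCond_coprime hc.symm v).symm.dvd_of_dvd_mul_right (h.2.symm ▸ dvd_mul_right m n))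
  refine ⟨⟨h.1.1, e1⟩, h.1.2, Nat.eq_of_mul_eq_mul_left (Nat.pos_of_ne_zero (NeZero.ne m)) ?_⟩
  have h3 := h.2
  rw [e1] at h3
  exact h3

end CRT

theorem tupleTally_one : tupleTally r 1 1 = 1 := by
  haveI : Unique {v : CharTuple r 1 // Killed v ∧ tupleCond v = 1} :=
    { default := ⟨1, fun i => one_pow _, Finset.prod_eq_one fun w _ => by
        rw [Subsingleton.elim (comb (1 : CharTuple r 1) w) 1, conductor_one]⟩
      uniq := fun v => Subtype.ext (Subsingleton.elim _ _) }
  exact Nat.card_unique

theorem tupleCnt_isMultiplicative : (tupleCnt r).IsMultiplicative := by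
  refine ArithmeticFunction.IsMultiplicative.iff_ne_zero.mpr ⟨?_, fun {m n} hm hn hc => ?_⟩
  · rw [tupleCnt_apply one_ne_zero, tupleTally_one, Nat.cast_one]
  · haveI : NeZero m := ⟨hm⟩
    haveI : NeZero n := ⟨hn⟩
    rw [tupleCnt_apply (mul_ne_zero hm hn), tupleCnt_apply hm, tupleCnt_apply hn,
      tupleTally_mul hc, Nat.cast_mul]

/-- **Summing the counts.** -/
theorem card_tupleCond_mem [NeZero N] (s : Finset ℕ) (hs : ∀ d ∈ s, d ∣ N) :
    (Nat.card {v : CharTuple r N // Killed v ∧ tupleCond v ∈ s} : ℝ) =
      ∑ d ∈ s, tupleCnt r d := by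
  rw [Nat.card_eq_fintype_card, Fintype.card_subtype,
    Finset.card_eq_sum_card_fiberwise (f := tupleCond) (t := s)
      fun v hv => (Finset.mem_filter.mp hv).2.2, Nat.cast_sum]
  refine Finset.sum_congr rfl fun d hd => ?_
  have hd0 : d ≠ 0 := ne_zero_of_dvd_ne_zero (NeZero.ne N) (hs d hd)
  rw [tupleCnt_apply hd0, ← tupleTally_eq (hs d hd), tupleTally, Nat.card_eq_fintype_card,
    Fintype.card_subtype, Finset.filter_filter]
  refine congrArg Nat.cast (congrArg Finset.card (Finset.filter_congr fun v _ => ?_))
  exact ⟨fun h => ⟨h.1.1, h.2⟩, fun h => ⟨⟨h.1, h.2 ▸ hd⟩, h.2⟩⟩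

end FA.ElementaryAbelianCount
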