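import Fermat.Agent.ElementaryAbelianCount.Fields
import Fermat.Agent.ElementaryAbelianCount.Tuples
import Mathlib.Algebra.Module.ZMod
import Mathlib.LinearAlgebra.Matrix.GeneralLinearGroup.Card

/-!
# Groups of exponent two and their bases

An injective tuple is an ordered basis of a group of `2 ^ r` characters killed by two, and the
product of its conductors is that of the group; a tuple which is not injective is determined by a
relation and a shorter tuple, and its product is the square of that of the shorter one.
-/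

set_option autoImplicit false
set_option linter.style.haveILetI false

noncomputable section

open DirichletCharacter
open FA.AbelianQuartic (condProd)
open scoped Classical

namespace FA.ElementaryAbelianCount

variable {r s N : ℕ}

theorem eq_of_add_eq_zero_two : ∀ x y : ZMod 2, x + y = 0 → x = y := by decide

theorem comb_mul_self {M : Type*} [CommMonoid M] {v : Fin r → M} (h : ∀ i, v i ^ 2 = 1)
    (w : Fin r → ZMod 2) : comb v w * comb v w = 1 := by
  rw [← comb_add h, show w + w = 0 from funext fun i => by
    show w i + w i = 0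
    generalize w i = x
    revert x
    decide, comb_zero]

/-- The group of the combinations. -/
def spanGroup (v : CharTuple r N) : Subgroup (DirichletCharacter ℂ N) :=
  Subgroup.closure (Set.range (comb v))

theorem coe_spanGroup {v : CharTuple r N} (hv : Killed v) :
    (spanGroup v : Set (DirichletCharacter ℂ N)) = Set.range (comb v) := by
  refine Set.Subset.antisymm (fun x hx => ?_) Subgroup.subset_closure
  refine Subgroup.closure_induction (p := fun x _ => x ∈ Set.range (comb v)) (fun _ h => h)
    ⟨0, comb_zero v⟩ (fun _ _ _ _ hx hy => ?_) (fun _ _ hx => ?_) hx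
  · obtain ⟨a, rfl⟩ := hx
    obtain ⟨b, rfl⟩ := hy
    exact ⟨a + b, comb_add hv a b⟩
  · obtain ⟨a, rfl⟩ := hx
    exact ⟨a, (inv_eq_of_mul_eq_one_right (comb_mul_self hv a)).symm⟩

theorem killed_mem_spanGroup {v : CharTuple r N} (hv : Killed v) :
    ∀ χ ∈ spanGroup v, χ ^ 2 = 1 := fun χ hχ => by
  obtain ⟨w, rfl⟩ := (coe_spanGroup hv ▸ hχ : χ ∈ Set.range (comb v))
  rw [pow_two, comb_mul_self hv]

theorem card_spanGroup {v : CharTuple r N} (hv : Killed v) (hi : Function.Injective (comb v)) :
    Nat.card (spanGroup v) = 2 ^ r := by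
  rw [show Nat.card (spanGroup v) = Nat.card (spanGroup v : Set (DirichletCharacter ℂ N)) from rfl,
    coe_spanGroup hv, Nat.card_range_of_injective hi]
  simp

theorem condProd_spanGroup [NeZero N] {v : CharTuple r N} (hv : Killed v)
    (hi : Function.Injective (comb v)) : condProd N (spanGroup v) = tupleCond v := by
  have hs : Finset.univ.filter (fun χ => χ ∈ spanGroup v) = Finset.univ.image (comb v) := by
    ext χ
    have : χ ∈ spanGroup v ↔ ∃ a, comb v a = χ := Set.ext_iff.mp (coe_spanGroup hv) χ
    simp [this]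
  rw [condProd, hs,
    Finset.prod_image hi.injOn, tupleCond]

/-- **Ordered bases.** -/
theorem card_bases [NeZero N] {H : Subgroup (DirichletCharacter ℂ N)} (hH : Nat.card H = 2 ^ r)
    (h2 : ∀ χ ∈ H, χ ^ 2 = 1) :
    Nat.card {v : CharTuple r N // Killed v ∧ Function.Injective (comb v) ∧ spanGroup v = H} =
      ∏ i : Fin r, (2 ^ r - 2 ^ (i : ℕ)) := by
  haveI : Fact (Nat.Prime 2) := ⟨Nat.prime_two⟩
  letI : Module (ZMod 2) (Additive H) := AddCommGroup.zmodModule fun x => by
    show x.toMul ^ 2 = 1
    exact Subtype.ext (h2 _ x.toMul.2)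
  have hn : Module.finrank (ZMod 2) (Additive H) = r := by
    have h := Module.natCard_eq_pow_finrank (K := ZMod 2) (V := Additive H)
    rw [show Nat.card (Additive H) = Nat.card H from Nat.card_congr Additive.toMul, hH,
      Nat.card_zmod] at h
    exact (Nat.pow_right_injective le_rfl h).symm
  have h := card_linearIndependent (K := ZMod 2) (V := Additive H) (k := r) hn.ge
  rw [hn, ZMod.card] at h
  rw [← h]
  let val : (Fin r → Additive H) → CharTuple r N :=
    fun s i => ((s i).toMul : DirichletCharacter ℂ N)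
  have hk : ∀ s, Killed (val s) := fun s i => h2 _ (s i).toMul.2
  have hsum : ∀ s w, ((∑ i, (w i : ZMod 2) • s i).toMul : DirichletCharacter ℂ N) =
      comb (val s) w := fun s w => by
    rw [toMul_sum, Submonoid.coe_finsetProd, comb]
    refine Finset.prod_congr rfl fun i _ => ?_
    conv_lhs => rw [← ZMod.natCast_zmod_val (w i), Nat.cast_smul_eq_nsmul]
    rw [toMul_nsmul, SubgroupClass.coe_pow]
  have hli : ∀ s, LinearIndependent (ZMod 2) s ↔ Function.Injective (comb (val s)) := fun s => by
    rw [Fintype.linearIndependent_iff]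
    constructor
    · intro hg a b hab
      have h0 : comb (val s) (a + b) = 1 := by rw [comb_add (hk s), hab, comb_mul_self (hk s)]
      rw [← hsum] at h0
      have h1 := hg (a + b) (show _ = Additive.ofMul (1 : H) from congrArg Additive.ofMul
        (Subtype.ext h0 : (∑ i, ((a + b) i : ZMod 2) • s i).toMul = 1))
      refine funext fun i => ?_
      have h2 := h1 i
      rw [Pi.add_apply] at h2
      exact eq_of_add_eq_zero_two _ _ h2
    · intro hi g hg
      have h0 : comb (val s) g = comb (val s) 0 := by
        rw [comb_zero, ← hsum, hg]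
        rfl
      exact congrFun (hi h0)
  refine (Nat.card_congr (Equiv.ofBijective
    (fun s : {s : Fin r → Additive H // LinearIndependent (ZMod 2) s} =>
      (⟨val s.1, hk s.1, (hli s.1).mp s.2, ?_⟩ :
        {v : CharTuple r N // Killed v ∧ Function.Injective (comb v) ∧ spanGroup v = H}))
    ⟨?_, ?_⟩)).symm
  · have hle : spanGroup (val s.1) ≤ H := by
      rw [spanGroup, Subgroup.closure_le]
      rintro _ ⟨w, rfl⟩
      rw [← hsum]
      exact SetLike.coe_mem _
    refine SetLike.coe_injective (Set.eq_of_subset_of_ncard_le hle ?_ (Set.toFinite _))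
    rw [← Nat.card_coe_set_eq, ← Nat.card_coe_set_eq]
    exact (hH.trans (card_spanGroup (hk s.1) ((hli s.1).mp s.2)).symm).le
  · intro s t e
    exact Subtype.ext (funext fun i => Additive.toMul.injective
      (Subtype.ext (congrFun (congrArg Subtype.val e) i)))
  · rintro ⟨v, hv, hi, hspan⟩
    have hmem : ∀ i, v i ∈ H := fun i => by
      rw [← hspan]
      exact Subgroup.subset_closure ⟨Pi.single i 1, comb_single v i⟩
    let s : Fin r → Additive H := fun i => Additive.ofMul ⟨v i, hmem i⟩
    exact ⟨⟨s, (hli s).mpr hi⟩, rfl⟩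

/-! ### Tuples with a relation -/

/-- A relation of a tuple. -/
def relOf (v : CharTuple r N) : Fin r → ZMod 2 :=
  if h : ∃ w, w ≠ 0 ∧ comb v w = 1 then h.choose else 0

theorem relOf_spec {v : CharTuple r N} (hv : Killed v) (hi : ¬Function.Injective (comb v)) :
    relOf v ≠ 0 ∧ comb v (relOf v) = 1 := by
  have h : ∃ w, w ≠ 0 ∧ comb v w = 1 := by
    obtain ⟨a, b, hab, hne⟩ := Function.not_injective_iff.mp hi
    refine ⟨a + b, fun h0 => hne (funext fun i => ?_), by rw [comb_add hv, hab, comb_mul_self hv]⟩
    have h2 := congrFun h0 i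
    simp only [Pi.add_apply, Pi.zero_apply] at h2
    exact eq_of_add_eq_zero_two _ _ h2
  rw [relOf, dif_pos h]
  exact h.choose_spec

/-- A coordinate in the support. -/
def pivotOf (w : Fin (s + 1) → ZMod 2) : Fin (s + 1) :=
  if h : ∃ j, w j = 1 then h.choose else 0

theorem pivotOf_spec {w : Fin (s + 1) → ZMod 2} (hw : w ≠ 0) : w (pivotOf w) = 1 := by
  have h : ∃ j, w j = 1 := by
    by_contra hc
    push Not at hc
    refine hw (funext fun i => ?_)
    have := hc i
    show w i = 0
    revert this
    generalize w i = x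
    revert x
    decide
  rw [pivotOf, dif_pos h]
  exact h.choose_spec

theorem comb_split {M : Type*} [CommMonoid M] (v : Fin (s + 1) → M) (j : Fin (s + 1))
    (w : Fin (s + 1) → ZMod 2) :
    comb v w = v j ^ (w j).val * comb (v ∘ j.succAbove) (w ∘ j.succAbove) := by
  rw [comb, Fin.prod_univ_succAbove _ j]
  rfl

/-- **The product of a tuple with a relation is a square.** -/
theorem tupleCond_of_relation {v : CharTuple (s + 1) N} (hv : Killed v) {w : Fin (s + 1) → ZMod 2}
    {j : Fin (s + 1)} (hj : w j = 1) (h : comb v w = 1) :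
    tupleCond v = tupleCond (v ∘ j.succAbove) * tupleCond (v ∘ j.succAbove) := by
  set e := Fin.insertNthEquiv (fun _ : Fin (s + 1) => ZMod 2) j
  have hzero : ∀ u : Fin s → ZMod 2,
      comb v (e (0, u)) = comb (v ∘ j.succAbove) u := fun u => by
    rw [comb_split v j]
    simp [e, Fin.insertNthEquiv, Function.comp_def]
  have hshift : ∀ x : Fin (s + 1) → ZMod 2, comb v (x + w) = comb v x := fun x => by
    rw [comb_add hv, h, mul_one]
  have h0 : tupleCond (v ∘ j.succAbove) = ∏ u : Fin s → ZMod 2, (comb v (e (0, u))).conductor :=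
    Finset.prod_congr rfl fun u _ => by rw [hzero]
  have h1 : tupleCond (v ∘ j.succAbove) =
      ∏ u : Fin s → ZMod 2, (comb v (e (1, u))).conductor := by
    rw [h0, ← Equiv.prod_comp (Equiv.addRight (w ∘ j.succAbove))
      fun u => (comb v (e (1, u))).conductor]
    refine Finset.prod_congr rfl fun u _ => congrArg _ ?_
    rw [← hshift]
    refine congrArg _ (funext fun i => ?_)
    rcases Fin.eq_self_or_eq_succAbove j i with rfl | ⟨k, rfl⟩
    · simp [e, Fin.insertNthEquiv, hj]
    · simp [e, Fin.insertNthEquiv]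
  rw [tupleCond, ← Equiv.prod_comp e, Fintype.prod_prod_type, show (Finset.univ : Finset (ZMod 2)) =
    {0, 1} from rfl, Finset.prod_insert (by decide), Finset.prod_singleton, ← h0, ← h1]

/-- **Counting the tuples with a relation.** -/
theorem card_relation_le (s X : ℕ) [NeZero N] :
    Nat.card {v : CharTuple (s + 1) N //
        (Killed v ∧ tupleCond v ≤ X) ∧ ¬Function.Injective (comb v)} ≤
      2 ^ (s + 1) * Nat.card {u : CharTuple s N // Killed u ∧ tupleCond u ≤ Nat.sqrt X} := by
  rw [show 2 ^ (s + 1) = Nat.card (Fin (s + 1) → ZMod 2) by simp, ← Nat.card_prod]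
  refine Nat.card_le_card_of_injective
    (fun v => (relOf v.1, ⟨v.1 ∘ (pivotOf (relOf v.1)).succAbove, fun i => v.2.1.1 _, ?_⟩)) ?_
  · obtain ⟨hw, h1⟩ := relOf_spec v.2.1.1 v.2.2
    have h := v.2.1.2
    rw [tupleCond_of_relation v.2.1.1 (pivotOf_spec hw) h1] at h
    exact Nat.le_sqrt.mpr h
  · rintro ⟨v, ⟨hv, hD⟩, hi⟩ ⟨v', ⟨hv', hD'⟩, hi'⟩ e
    simp only [Prod.mk.injEq, Subtype.mk.injEq] at e
    obtain ⟨e1, e2⟩ := e
    obtain ⟨hw, h1⟩ := relOf_spec hv hi
    obtain ⟨-, h1'⟩ := relOf_spec hv' hi'
    rw [← e1] at h1' e2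
    set j := pivotOf (relOf v)
    rw [comb_split v j, pivotOf_spec hw, show (1 : ZMod 2).val = 1 from rfl, pow_one] at h1
    rw [comb_split v' j, pivotOf_spec hw, show (1 : ZMod 2).val = 1 from rfl, pow_one, ← e2,
      ← h1] at h1'
    refine Subtype.ext (funext fun i => ?_)
    rcases Fin.eq_self_or_eq_succAbove j i with rfl | ⟨k, rfl⟩
    · exact (mul_right_cancel h1').symm
    · exact congrFun e2 k

end FA.ElementaryAbelianCount
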