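import Fermat.Agent.AbelianQuartic.Convolution
import Fermat.Agent.Root.SummaryAbelianZeta
import Mathlib.NumberTheory.LSeries.Injectivity
import Mathlib.NumberTheory.LSeries.SumCoeff
import Mathlib.NumberTheory.NumberField.Ideal.Asymptotics

/-!
# The ideals of a cyclotomic field by norm

The ideals of norm at most `x` are `~ R x`, `R` the residue of the zeta function; their counts by
norm are the convolution of all primitive characters, whose inverse is that of the twisted Möbius
functions.
-/

set_option autoImplicit false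
set_option linter.style.haveILetI false

noncomputable section

open NumberField Filter Topology ArithmeticFunction DirichletCharacter
open FA.AbelianQuartic (partialSum)
open scoped Classical ArithmeticFunction.Moebius ArithmeticFunction.zeta LSeries.notation
  nonZeroDivisors

namespace FA.ElementaryAbelianCount

section Ideals

variable (K : Type*) [Field K] [NumberField K]

/-- The ideals by norm. -/
def idealCnt : ArithmeticFunction ℝ :=
  toArithmeticFunction fun n => (Nat.card {I : Ideal (𝓞 K) // Ideal.absNorm I = n} : ℝ)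

theorem idealCnt_apply {n : ℕ} (hn : n ≠ 0) :
    idealCnt K n = (Nat.card {I : Ideal (𝓞 K) // Ideal.absNorm I = n} : ℝ) := if_neg hn

theorem idealCnt_nonneg (n : ℕ) : 0 ≤ idealCnt K n := by
  rcases eq_or_ne n 0 with rfl | hn
  · simp
  · rw [idealCnt_apply K hn]; exact Nat.cast_nonneg _

theorem partialSum_idealCnt (m : ℕ) :
    partialSum (idealCnt K) m =
      (Nat.card {I : (Ideal (𝓞 K))⁰ // Ideal.absNorm (I : Ideal (𝓞 K)) ≤ m} : ℝ) := by
  rw [partialSum, Nat.floor_natCast, Finset.sum_congr rfl fun n hn =>
    idealCnt_apply K (Nat.pos_iff_ne_zero.mp (Finset.mem_Ioc.mp hn).1), ← Nat.cast_sum]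
  congr 1
  rw [← add_left_inj 1, ← Ideal.card_norm_le_eq_card_norm_le_add_one,
    show 1 = Nat.card {I : Ideal (𝓞 K) // Ideal.absNorm I = 0} by simp [Ideal.absNorm_eq_zero_iff],
    Finset.sum_Ioc_add_eq_sum_Icc m.zero_le,
    ← Finset.card_preimage_eq_sum_card_image_eq (fun k _ => Ideal.finite_setOfPred_absNorm_eq k)]
  simp [Set.coe_eq_subtype]

/-- **The ideals of bounded norm.** -/
theorem tendsto_idealCnt :
    Tendsto (fun x => partialSum (idealCnt K) x / x) atTop (𝓝 (dedekindZeta_residue K)) := by
  rw [dedekindZeta_residue_def]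
  refine (Ideal.tendsto_norm_le_div_atTop₀ K).congr' ?_
  filter_upwards [eventually_ge_atTop 0] with x hx
  rw [show partialSum (idealCnt K) x = partialSum (idealCnt K) (⌊x⌋₊ : ℝ) by
    rw [partialSum, partialSum, Nat.floor_natCast], partialSum_idealCnt]
  simp_rw [Nat.le_floor_iff hx]

theorem exists_bound_idealCnt :
    ∃ C : ℝ, ∀ x : ℝ, 1 ≤ x → |partialSum (idealCnt K) x| ≤ C * x := by
  have hnn : ∀ x, 0 ≤ partialSum (idealCnt K) x := fun x =>
    Finset.sum_nonneg fun n _ => idealCnt_nonneg K n
  obtain ⟨x₀, h₀⟩ := eventually_atTop.mp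
    ((tendsto_idealCnt K).eventually_le_const (lt_add_one (dedekindZeta_residue K)))
  refine ⟨max (dedekindZeta_residue K + 1) (partialSum (idealCnt K) x₀), fun x hx => ?_⟩
  rw [abs_of_nonneg (hnn x)]
  rcases le_total x₀ x with h | h
  · exact ((div_le_iff₀ (by linarith)).mp (h₀ x h)).trans
      (mul_le_mul_of_nonneg_right (le_max_left _ _) (by linarith))
  · refine le_trans ?_ (le_mul_of_one_le_right ((hnn x₀).trans (le_max_right _ _)) hx)
    exact (Finset.sum_le_sum_of_subset_of_nonneg
      (Finset.Ioc_subset_Ioc_right (Nat.floor_le_floor h)) fun n _ _ => idealCnt_nonneg K n).trans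
      (le_max_right _ _)

theorem lseriesSummable_idealCnt {s : ℂ} (hs : 1 < s.re) :
    LSeriesSummable (fun n => (idealCnt K n : ℂ)) s := by
  obtain ⟨C, hC⟩ := exists_bound_idealCnt K
  refine LSeriesSummable_of_sum_norm_bigO_and_nonneg (r := 1) ?_ (idealCnt_nonneg K) zero_le_one hs
  refine Asymptotics.IsBigO.of_bound C ?_
  filter_upwards [eventually_ge_atTop 1] with n hn
  have h := hC n (Nat.one_le_cast.mpr hn)
  rw [partialSum, Nat.floor_natCast, ← Finset.Icc_succ_left_eq_Ioc] at h
  simpa [Real.norm_eq_abs, Real.rpow_one] using h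

theorem lseries_idealCnt (s : ℂ) : LSeries (fun n => (idealCnt K n : ℂ)) s = dedekindZeta K s := by
  rw [dedekindZeta]
  exact LSeries_congr (fun {n} hn => by rw [idealCnt_apply K hn, Complex.ofReal_natCast]) s

end Ideals

/-! ### Characters -/

variable {l : ℕ} [NeZero l]

/-- The primitive character as an arithmetic function. -/
def charFun (χ : DirichletCharacter ℂ l) : ArithmeticFunction ℂ :=
  toArithmeticFunction fun n => χ.primitiveCharacter n

/-- The twisted Möbius function. -/
def charStep (χ : DirichletCharacter ℂ l) : ArithmeticFunction ℂ :=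
  (μ : ArithmeticFunction ℂ).pmul (charFun χ)

omit [NeZero l] in
theorem charFun_isMultiplicative (χ : DirichletCharacter ℂ l) :
    (charFun χ).IsMultiplicative := by
  refine IsMultiplicative.iff_ne_zero.mpr ⟨?_, fun {m n} hm hn _ => ?_⟩
  · simp [charFun, toArithmeticFunction]
  · simp [charFun, toArithmeticFunction, hm, hn]

omit [NeZero l] in
theorem charStep_mul_charFun (χ : DirichletCharacter ℂ l) : charStep χ * charFun χ = 1 := by
  ext n
  rcases eq_or_ne n 0 with rfl | hn
  · simp
  rw [mul_apply]
  calc ∑ x ∈ n.divisorsAntidiagonal, charStep χ x.1 * charFun χ x.2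
      = ∑ x ∈ n.divisorsAntidiagonal, charFun χ n *
          ((μ : ArithmeticFunction ℂ) x.1 * (ζ : ArithmeticFunction ℂ) x.2) := by
        refine Finset.sum_congr rfl fun x hx => ?_
        obtain ⟨hxn, -⟩ := Nat.mem_divisorsAntidiagonal.mp hx
        obtain ⟨h1, h2⟩ := mul_ne_zero_iff.mp (hxn ▸ hn)
        subst hxn
        simp only [charStep, pmul_apply, charFun, toArithmeticFunction, ArithmeticFunction.coe_mk,
          if_neg h1, if_neg h2, if_neg hn, natCoe_apply, zeta_apply, Nat.cast_one, Nat.cast_mul,
          map_mul]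
        ring
    _ = charFun χ n * (1 : ArithmeticFunction ℂ) n := by
        rw [← Finset.mul_sum, ← mul_apply, coe_moebius_mul_coe_zeta]
    _ = (1 : ArithmeticFunction ℂ) n := by
        rw [one_apply]
        split_ifs with h
        · rw [h, (charFun_isMultiplicative χ).map_one, mul_one]
        · rw [mul_zero]

theorem lseries_prod_charFun (t : Finset (DirichletCharacter ℂ l)) {s : ℂ} (hs : 1 < s.re) :
    LSeriesSummable ↗(∏ χ ∈ t, charFun χ) s ∧
      LSeries ↗(∏ χ ∈ t, charFun χ) s = ∏ χ ∈ t, LFunction χ.primitiveCharacter s := by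
  induction t using Finset.induction_on with
  | empty =>
    rw [Finset.prod_empty, Finset.prod_empty, one_eq_delta]
    refine ⟨?_, by rw [LSeries_delta]; rfl⟩
    exact summable_of_ne_finset_zero (s := {1}) fun n hn => by
      rw [Finset.mem_singleton] at hn
      rcases eq_or_ne n 0 with rfl | h0
      · simp
      · simp [LSeries.term_of_ne_zero h0, LSeries.delta, hn]
  | insert a t ha ih =>
    have h1 : LSeriesSummable ↗(charFun a) s :=
      (LSeriesSummable_congr s fun {n} hn => by simp [charFun, toArithmeticFunction, hn]).mpr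
        (LSeriesSummable_of_one_lt_re a.primitiveCharacter hs)
    rw [Finset.prod_insert ha, Finset.prod_insert ha]
    refine ⟨ArithmeticFunction.LSeriesSummable_mul h1 ih.1, ?_⟩
    rw [ArithmeticFunction.LSeries_mul' h1 ih.1, ih.2, LFunction_eq_LSeries _ hs]
    congr 1
    exact LSeries_congr (fun {n} hn => by simp [charFun, toArithmeticFunction, hn]) s

/-- **The ideals are the convolution of the characters.** -/
theorem idealCnt_eq_prod (K : Type*) [Field K] [NumberField K] [IsCyclotomicExtension {l} ℚ K]
    (n : ℕ) : (idealCnt K n : ℂ) = (∏ χ : DirichletCharacter ℂ l, charFun χ) n := by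
  rcases eq_or_ne n 0 with rfl | hn
  · simp
  refine LSeries.eq_of_LSeries_eventually_eq
    (f := fun m => (idealCnt K m : ℂ)) (g := ↗(∏ χ : DirichletCharacter ℂ l, charFun χ)) ?_ ?_ ?_ hn
  · exact lt_of_le_of_lt (lseriesSummable_idealCnt K (s := 2) (by simp)).abscissaOfAbsConv_le
      (EReal.coe_lt_top _)
  · exact lt_of_le_of_lt
      (lseries_prod_charFun Finset.univ (s := 2) (by simp)).1.abscissaOfAbsConv_le
      (EReal.coe_lt_top _)
  · filter_upwards [eventually_gt_atTop 1] with x hx
    have hx' : 1 < (x : ℂ).re := by simpa using hx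
    rw [lseries_idealCnt, FA.Summary.dedekindZeta_cyclotomic l K hx',
      (lseries_prod_charFun Finset.univ hx').2]

end FA.ElementaryAbelianCount
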