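import Fermat.Agent.ElementaryAbelianCount.CyclicLocal
import Fermat.Agent.ElementaryAbelianCount.CyclotomicBase

/-!
# Dividing the count of characters by the ideals

Each twisted Möbius function multiplies the local series by `1 - χ(p) x`; over all characters of
prime level `ℓ` this gives `(1 - x ^ f) ^ ((ℓ - 1) / f)`, `f` the order of `p`, and `1 - x` at `ℓ`.
-/

set_option autoImplicit false
set_option linter.style.haveILetI false

noncomputable section

open ArithmeticFunction DirichletCharacter
open FA.AbelianQuartic (Tame locSum)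
open scoped Classical ArithmeticFunction.Moebius

namespace FA.ElementaryAbelianCount

/-- Complex values. -/
def cplxFun (f : ArithmeticFunction ℝ) : ArithmeticFunction ℂ := ⟨fun n => (f n : ℂ), by simp⟩

theorem cplxFun_apply (f : ArithmeticFunction ℝ) (n : ℕ) : cplxFun f n = (f n : ℂ) := rfl

theorem cplxFun_mul (f g : ArithmeticFunction ℝ) : cplxFun (f * g) = cplxFun f * cplxFun g := by
  ext n
  simp only [cplxFun_apply, ArithmeticFunction.mul_apply, Complex.ofReal_sum, Complex.ofReal_mul]

theorem cplxFun_injective : Function.Injective cplxFun := fun _ _ h =>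
  ArithmeticFunction.ext fun n => Complex.ofReal_inj.mp (DFunLike.congr_fun h n)

/-- Conjugate values. -/
def conjFun (f : ArithmeticFunction ℂ) : ArithmeticFunction ℂ :=
  ⟨fun n => starRingEnd ℂ (f n), by simp⟩

theorem conjFun_mul (f g : ArithmeticFunction ℂ) : conjFun (f * g) = conjFun f * conjFun g := by
  ext n
  simp only [conjFun, ArithmeticFunction.coe_mk, ArithmeticFunction.mul_apply, map_sum, map_mul]

theorem conjFun_cplxFun (f : ArithmeticFunction ℝ) : conjFun (cplxFun f) = cplxFun f :=
  ArithmeticFunction.ext fun _ => Complex.conj_ofReal _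

variable (l : ℕ) [hl : Fact l.Prime]

/-- The product of the twisted Möbius functions over a set of characters, times the count. -/
def stepProd (t : Finset (DirichletCharacter ℂ l)) : ArithmeticFunction ℂ :=
  cplxFun (cycCnt l) * ∏ χ ∈ t, charStep χ

omit hl in
theorem charStep_prime_pow (χ : DirichletCharacter ℂ l) {p : ℕ} (hp : p.Prime) (e : ℕ) :
    charStep χ (p ^ e) =
      if e = 0 then 1 else if e = 1 then -χ.primitiveCharacter p else 0 := by
  have hne : p ^ e ≠ 0 := pow_ne_zero _ hp.ne_zero
  rcases eq_or_ne e 0 with rfl | he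
  · simp [charStep, charFun, toArithmeticFunction]
  rw [if_neg he, charStep, pmul_apply, intCoe_apply, moebius_apply_prime_pow hp he]
  split_ifs with h1
  · subst h1
    simp [charFun, toArithmeticFunction, hp.ne_zero]
  · simp

omit hl in
theorem mul_charStep_prime (F : ArithmeticFunction ℂ) (χ : DirichletCharacter ℂ l) {p : ℕ}
    (hp : p.Prime) (e : ℕ) :
    (F * charStep χ) (p ^ (e + 1)) = F (p ^ (e + 1)) - χ.primitiveCharacter p * F (p ^ e) := by
  rw [ArithmeticFunction.mul_apply, Nat.sum_divisorsAntidiagonal' fun a b => F a * charStep χ b,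
    Nat.sum_divisors_prime_pow hp, Finset.sum_range_succ', Finset.sum_range_succ',
    Finset.sum_eq_zero fun b _ => by
      rw [charStep_prime_pow l χ hp, if_neg (by omega), if_neg (by omega), mul_zero],
    charStep_prime_pow l χ hp, charStep_prime_pow l χ hp, Nat.pow_div (by omega) hp.pos,
    pow_zero, Nat.div_one]
  simp
  ring

omit hl in
theorem charFun_bound (χ : DirichletCharacter ℂ l) (p : ℕ) : ‖χ.primitiveCharacter p‖ ≤ 1 :=
  χ.primitiveCharacter.norm_le_one _

/-- **The local facts.** -/
theorem stepProd_local (hl2 : l ≠ 2) (t : Finset (DirichletCharacter ℂ l)) {p : ℕ} (hp : p.Prime) :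
    stepProd l t 1 = 1 ∧
    (∀ e, 3 + t.card ≤ e → stepProd l t (p ^ e) = 0) ∧
    (∀ e, ‖stepProd l t (p ^ e)‖ ≤ l * 2 ^ t.card) ∧
    stepProd l t p = (cycCnt l p : ℂ) - ∑ χ ∈ t, χ.primitiveCharacter p ∧
    ∀ x : ℂ, HasSum (fun e => stepProd l t (p ^ e) * x ^ e)
      ((∏ χ ∈ t, (1 - χ.primitiveCharacter p * x)) *
        ∑ e ∈ Finset.range 3, (cycCnt l (p ^ e) : ℂ) * x ^ e) := by
  induction t using Finset.induction_on with
  | empty =>
    have h0 : stepProd l ∅ = cplxFun (cycCnt l) := by rw [stepProd, Finset.prod_empty, mul_one]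
    simp only [h0, cplxFun_apply, Finset.card_empty, add_zero, pow_zero, mul_one,
      Finset.sum_empty, sub_zero, Finset.prod_empty, one_mul, Complex.norm_real, Real.norm_eq_abs]
    refine ⟨by rw [(cycCnt_isMultiplicative l).map_one, Complex.ofReal_one],
      fun e he => by rw [(tame_cycCnt l hl2 p hp e).1 he, Complex.ofReal_zero],
      fun e => (tame_cycCnt l hl2 p hp e).2, trivial,
      fun x => hasSum_sum_of_ne_finset_zero fun e he => ?_⟩
    rw [(tame_cycCnt l hl2 p hp e).1 (by simpa using he), Complex.ofReal_zero, zero_mul]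
  | insert a t ha ih =>
    obtain ⟨h1, hvan, hbd, hprime, hsum⟩ := ih
    set c := a.primitiveCharacter p
    have hF : stepProd l (insert a t) = stepProd l t * charStep a := by
      rw [stepProd, stepProd, Finset.prod_insert ha, mul_comm (charStep a), mul_assoc]
    have hs : ∀ e, stepProd l (insert a t) (p ^ (e + 1)) =
        stepProd l t (p ^ (e + 1)) - c * stepProd l t (p ^ e) :=
      fun e => hF ▸ mul_charStep_prime l _ a hp e
    have hone : stepProd l (insert a t) 1 = 1 := by
      rw [hF, mul_apply_one, h1, one_mul, ← pow_zero p, charStep_prime_pow l a hp, if_pos rfl]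
    rw [Finset.card_insert_of_notMem ha]
    refine ⟨hone, fun e he => ?_, fun e => ?_, ?_, fun x => ?_⟩
    · obtain ⟨i, rfl⟩ : ∃ i, e = i + 1 := ⟨e - 1, by omega⟩
      rw [hs, hvan _ (by omega), hvan _ (by omega), mul_zero, sub_zero]
    · rw [pow_succ, ← mul_assoc, mul_two]
      have hb := hbd e
      have hnn : (0 : ℝ) ≤ l * 2 ^ t.card := by positivity
      rcases e with _ | i
      · rw [pow_zero, hone, ← h1]
        rw [pow_zero] at hb
        linarith
      · rw [hs]
        refine (norm_sub_le _ _).trans (add_le_add hb ?_)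
        rw [norm_mul]
        exact (mul_le_of_le_one_left (norm_nonneg _) (charFun_bound l a p)).trans (hbd i)
    · have h := hs 0
      rw [zero_add, pow_one, pow_zero, h1, mul_one, hprime] at h
      rw [h, Finset.sum_insert ha]
      ring
    · refine (hasSum_nat_add_iff' 1).mp ?_
      have hu := (hasSum_nat_add_iff' 1).mpr (hsum x)
      have hv := (hsum x).mul_left (c * x)
      have h := (hu.sub hv).congr_fun
        (g := fun e => stepProd l (insert a t) (p ^ (e + 1)) * x ^ (e + 1)) fun e => by
          rw [hs, pow_succ]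
          ring
      convert h using 1
      rw [Finset.prod_insert ha, Finset.sum_range_one, Finset.sum_range_one, pow_zero, pow_zero,
        h1, hone]
      ring

/-- The count divided by the ideals. -/
def cycCorr : ArithmeticFunction ℝ :=
  ⟨fun n => (stepProd l Finset.univ n).re, by simp⟩

variable (K : Type*) [Field K] [NumberField K] [IsCyclotomicExtension {l} ℚ K]

theorem cplxFun_idealCnt :
    cplxFun (idealCnt K) = ∏ χ : DirichletCharacter ℂ l, charFun χ :=
  ArithmeticFunction.ext fun n => idealCnt_eq_prod K n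

theorem steps_mul_idealCnt :
    (∏ χ : DirichletCharacter ℂ l, charStep χ) * cplxFun (idealCnt K) = 1 := by
  rw [cplxFun_idealCnt l K, ← Finset.prod_mul_distrib]
  exact Finset.prod_eq_one fun χ _ => charStep_mul_charFun χ

/-- **The product is real.** -/
theorem cplxFun_cycCorr : cplxFun (cycCorr l) = stepProd l Finset.univ := by
  haveI : IsCyclotomicExtension {l} ℚ (CyclotomicField l ℚ) :=
    CyclotomicField.isCyclotomicExtension l ℚ
  set B := ∏ χ : DirichletCharacter ℂ l, charStep χ
  set A := cplxFun (idealCnt (CyclotomicField l ℚ))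
  have h : B * A = 1 := steps_mul_idealCnt l (CyclotomicField l ℚ)
  have h' : conjFun B * A = 1 := by
    rw [← (show conjFun A = A from conjFun_cplxFun _), ← conjFun_mul, h]
    ext n
    simp only [conjFun, ArithmeticFunction.coe_mk, one_apply]
    split_ifs <;> simp
  have hreal : conjFun (stepProd l Finset.univ) = stepProd l Finset.univ := by
    rw [stepProd, conjFun_mul, conjFun_cplxFun]
    congr 1
    calc conjFun B = conjFun B * (A * B) := by rw [mul_comm A B, h, mul_one]
      _ = B := by rw [← mul_assoc, h', one_mul]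
  ext n
  exact (Complex.conj_eq_iff_re.mp (DFunLike.congr_fun hreal n))

theorem cycCorr_mul_idealCnt : cycCorr l * idealCnt K = cycCnt l := by
  refine cplxFun_injective ?_
  rw [cplxFun_mul, cplxFun_cycCorr, stepProd, mul_assoc, steps_mul_idealCnt l K, mul_one]

theorem cycCorr_cast (n : ℕ) : (cycCorr l n : ℂ) = stepProd l Finset.univ n :=
  DFunLike.congr_fun (cplxFun_cycCorr l) n

theorem stepProd_isMultiplicative : (stepProd l Finset.univ).IsMultiplicative := by
  refine IsMultiplicative.mul ?_ ?_
  · refine IsMultiplicative.iff_ne_zero.mpr ⟨?_, fun {m n} _ _ hc => ?_⟩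
    · rw [cplxFun_apply, (cycCnt_isMultiplicative l).map_one, Complex.ofReal_one]
    · rw [cplxFun_apply, cplxFun_apply, cplxFun_apply,
        (cycCnt_isMultiplicative l).map_mul_of_coprime hc, Complex.ofReal_mul]
  · exact Finset.prod_induction _ _ (fun _ _ h h' => h.mul h') isMultiplicative_one fun χ _ =>
      isMultiplicative_moebius.intCast.pmul (charFun_isMultiplicative χ)

theorem cycCorr_isMultiplicative : (cycCorr l).IsMultiplicative := by
  refine IsMultiplicative.iff_ne_zero.mpr ⟨Complex.ofReal_inj.mp ?_,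
    fun {m n} _ _ hc => Complex.ofReal_inj.mp ?_⟩
  · rw [cycCorr_cast, (stepProd_isMultiplicative l).map_one, Complex.ofReal_one]
  · rw [Complex.ofReal_mul, cycCorr_cast, cycCorr_cast, cycCorr_cast,
      (stepProd_isMultiplicative l).map_mul_of_coprime hc]

theorem tame_cycCorr (hl2 : l ≠ 2) :
    Tame (cycCorr l) (3 + Fintype.card (DirichletCharacter ℂ l))
      (l * 2 ^ Fintype.card (DirichletCharacter ℂ l)) := by
  intro p hp e
  obtain ⟨-, hvan, hbd, -⟩ := stepProd_local l hl2 Finset.univ hp
  refine ⟨fun he => Complex.ofReal_inj.mp ?_, (Complex.abs_re_le_norm _).trans (hbd e)⟩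
  rw [cycCorr_cast, hvan e he, Complex.ofReal_zero]

/-! ### The values of the characters -/

theorem primitive_apply {p : ℕ} (hp : p.Prime) (χ : DirichletCharacter ℂ l) :
    χ.primitiveCharacter p = if p = l then (if χ = 1 then 1 else 0) else χ p := by
  split_ifs with hpl hχ
  · subst hχ
    haveI : Subsingleton (ZMod (1 : DirichletCharacter ℂ l).conductor) := by
      rw [conductor_one]
      infer_instance
    rw [primitiveCharacter_one]
    exact MulChar.one_apply (isUnit_of_subsingleton _)
  · refine MulChar.map_nonunit _ fun hu => ?_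
    have hc : χ.conductor = l := (hl.out.eq_one_or_self_of_dvd _ χ.conductor_dvd_level).resolve_left
      fun h => hχ (eq_one_iff_conductor_eq_one.mpr h)
    rw [ZMod.isUnit_iff_coprime, hc, hpl] at hu
    exact hl.out.one_lt.ne' (Nat.coprime_self l |>.mp hu)
  · have hu : IsUnit (p : ZMod l) :=
      (ZMod.isUnit_iff_coprime p l).mpr ((Nat.coprime_primes hp hl.out).mpr hpl)
    have h := changeLevel_eq_cast_of_dvd χ.primitiveCharacter χ.conductor_dvd_level hu.unit
    rw [changeLevel_primitiveCharacter, hu.unit_spec, ZMod.cast_natCast χ.conductor_dvd_level] at h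
    exact h.symm

theorem sum_primitive (p : ℕ) (hp : p.Prime) :
    ∑ χ : DirichletCharacter ℂ l, χ.primitiveCharacter p =
      if p = l then 1 else if p % l = 1 then (l : ℂ) - 1 else 0 := by
  simp only [primitive_apply l hp]
  by_cases hpl : p = l
  · simp [hpl]
  simp only [if_neg hpl]
  have hmod : (p : ZMod l) = 1 ↔ p % l = 1 := by
    rw [← Nat.cast_one, ZMod.natCast_eq_natCast_iff', Nat.mod_eq_of_lt hl.out.one_lt]
  rw [DirichletCharacter.sum_characters_eq, Nat.totient_prime hl.out,
    Nat.cast_sub hl.out.one_lt.le, Nat.cast_one]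
  simp only [hmod]

theorem cycCorr_prime (hl2 : l ≠ 2) {p : ℕ} (hp : p.Prime) (hpl : p ≠ l) : cycCorr l p = 0 := by
  refine Complex.ofReal_inj.mp ?_
  rw [cycCorr_cast, (stepProd_local l hl2 Finset.univ hp).2.2.2.1, sum_primitive l p hp,
    if_neg hpl]
  have h := cycCnt_prime_pow l hl2 hp 0
  rw [zero_add, pow_one] at h
  rw [h]
  simp only [and_true, hpl, false_and, or_false]
  split_ifs <;> simp

/-- The value of the characters at a prime. -/
def charFactor (p : ℕ) (x : ℝ) : ℝ :=
  if p = l then 1 - x else (1 - x ^ orderOf (p : ZMod l)) ^ ((l - 1) / orderOf (p : ZMod l))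

theorem prod_primitive {p : ℕ} (hp : p.Prime) (x : ℝ) :
    ∏ χ : DirichletCharacter ℂ l, (1 - χ.primitiveCharacter p * (x : ℂ)) =
      (charFactor l p x : ℂ) := by
  simp only [primitive_apply l hp, charFactor]
  split_ifs with hpl
  · rw [Finset.prod_eq_single 1 (fun χ _ hne => by rw [if_neg hne, zero_mul, sub_zero])
      (fun h => absurd (Finset.mem_univ _) h), if_pos rfl, one_mul]
    push_cast
    rfl
  · have hu : IsUnit (p : ZMod l) :=
      (ZMod.isUnit_iff_coprime p l).mpr ((Nat.coprime_primes hp hl.out).mpr hpl)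
    haveI : Fintype ((ZMod l)ˣ →* ℂˣ) := Fintype.ofEquiv _ MulChar.equivToUnitHom
    have h := FA.AbelianZeta.prod_one_sub_monoidHom hu.unit (x : ℂ)
    rw [← Equiv.prod_comp (MulChar.equivToUnitHom (R := ZMod l) (R' := ℂ))] at h
    rw [← orderOf_units, IsUnit.unit_spec, Nat.card_eq_fintype_card, ZMod.card_units] at h
    push_cast
    rw [← h]
    refine Finset.prod_congr rfl fun χ _ => ?_
    simp [MulChar.coe_equivToUnitHom]

/-- **The local series.** -/
theorem locSum_cycCorr (hl2 : l ≠ 2) {p : ℕ} (hp : p.Prime) (x : ℝ) :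
    locSum (cycCorr l) p x =
      charFactor l p x * ∑ e ∈ Finset.range 3, cycCnt l (p ^ e) * x ^ e := by
  obtain ⟨-, -, -, -, hsum⟩ := stepProd_local l hl2 Finset.univ hp
  refine Complex.ofReal_inj.mp ?_
  rw [locSum, Complex.ofReal_tsum]
  refine Eq.trans ?_ ((hsum (x : ℂ)).tsum_eq.trans ?_)
  · exact tsum_congr fun e => by push_cast; rw [cycCorr_cast]
  · rw [prod_primitive l hp x]
    push_cast
    rfl

end FA.ElementaryAbelianCount
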