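import Fermat.Agent.AbelianQuartic.Convolution
import Fermat.Agent.AbelianQuartic.Tally
import Mathlib.RingTheory.ZMod.UnitsCyclic

/-!
# Characters of prime order by conductor

For an odd prime `ℓ` the characters killed by `ℓ` mod `p ^ k` are as many as the units, hence
`gcd (φ (p ^ k), ℓ)`; so `ℓ - 1` of them have conductor `p` for `p ≡ 1 (mod ℓ)`, `ℓ - 1` have
conductor `ℓ ^ 2`, and there are no others.
-/

set_option autoImplicit false
set_option linter.style.haveILetI false

noncomputable section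

open DirichletCharacter
open FA.AbelianQuartic (Shape cnt cnt_isMultiplicative card_prodCond_mem Valid prodCond Tame)
open scoped Classical

namespace FA.ElementaryAbelianCount

variable (l : ℕ) [hl : Fact l.Prime]

/-- One character killed by `l`. -/
def primeShape : Shape :=
  ⟨l, 1, {(1, 0)}, hl.out.pos, one_pos, Finset.mem_singleton_self _, Or.inl rfl⟩

/-- The characters killed by `l`, by conductor. -/
def cycCnt : ArithmeticFunction ℝ := cnt (primeShape l)

theorem cycCnt_isMultiplicative : (cycCnt l).IsMultiplicative := cnt_isMultiplicative _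

theorem cycCnt_nonneg (n : ℕ) : 0 ≤ cycCnt l n := FA.AbelianQuartic.cnt_nonneg _ n

/-- **Summing the characters.** -/
theorem card_conductor_mem {N : ℕ} [NeZero N] (s : Finset ℕ) (hs : ∀ d ∈ s, d ∣ N) :
    (Nat.card {χ : DirichletCharacter ℂ N // χ ^ l = 1 ∧ χ.conductor ∈ s} : ℝ) =
      ∑ d ∈ s, cycCnt l d := by
  rw [cycCnt, ← card_prodCond_mem _ s hs]
  refine congrArg Nat.cast (Nat.card_congr
    { toFun := fun χ => ⟨(χ.1, 1), ⟨χ.2.1, one_pow _⟩, by simp [prodCond, primeShape, χ.2.2]⟩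
      invFun := fun v => ⟨v.1.1, v.2.1.1, by simpa [prodCond, primeShape] using v.2.2⟩
      left_inv := fun χ => rfl
      right_inv := fun v => Subtype.ext (Prod.ext rfl ?_) })
  simpa [Valid, primeShape] using v.2.1.2.symm

theorem card_pow_eq_one (hl2 : l ≠ 2) {p : ℕ} (hp : p.Prime) (k : ℕ) :
    Nat.card {χ : DirichletCharacter ℂ (p ^ k) // χ ^ l = 1} = (Nat.totient (p ^ k)).gcd l := by
  haveI : NeZero (p ^ k) := ⟨pow_ne_zero _ hp.ne_zero⟩
  obtain ⟨E⟩ := DirichletCharacter.mulEquiv_units ℂ (p ^ k)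
  rw [Nat.card_congr (E.toEquiv.subtypeEquiv (q := fun u : (ZMod (p ^ k))ˣ => u ^ l = 1)
    fun χ => by simp [← map_pow]), ← ZMod.card_units_eq_totient, ← Nat.card_eq_fintype_card]
  rcases eq_or_ne p 2 with rfl | hp2
  · have hc : (Nat.card (ZMod (2 ^ k))ˣ).gcd l = 1 := by
      rw [Nat.card_eq_fintype_card, ZMod.card_units_eq_totient]
      rcases k with _ | k
      · simp
      · rw [Nat.totient_prime_pow_succ hp, show (2 - 1) = 1 from rfl, mul_one]
        exact Nat.Coprime.pow_left _ ((Nat.coprime_primes hp hl.out).mpr hl2.symm)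
    rw [hc, Nat.card_eq_one_iff_unique]
    refine ⟨⟨fun u v => Subtype.ext ?_⟩, ⟨⟨1, one_pow _⟩⟩⟩
    have key : ∀ w : (ZMod (2 ^ k))ˣ, w ^ l = 1 → w = 1 := fun w hw => by
      rw [← orderOf_eq_one_iff, ← Nat.dvd_one, ← hc]
      exact Nat.dvd_gcd (orderOf_dvd_natCard w) (orderOf_dvd_of_pow_eq_one hw)
    rw [key _ u.2, key _ v.2]
  · haveI := ZMod.isCyclic_units_of_prime_pow p hp hp2 k
    refine (Nat.card_congr (Equiv.subtypeEquivRight
      (q := fun u : (ZMod (p ^ k))ˣ => u ∈ (powMonoidHom l : (ZMod (p ^ k))ˣ →* _).ker)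
      fun u => ?_)).trans (IsCyclic.card_powMonoidHom_ker (G := (ZMod (p ^ k))ˣ) l)
    rw [MonoidHom.mem_ker, powMonoidHom_apply]

theorem cycCnt_prime_pow (hl2 : l ≠ 2) {p : ℕ} (hp : p.Prime) (k : ℕ) :
    cycCnt l (p ^ (k + 1)) =
      if (p % l = 1 ∧ k = 0) ∨ (p = l ∧ k = 1) then (l : ℝ) - 1 else 0 := by
  have hsum : ∀ j, (((Nat.totient (p ^ j)).gcd l : ℕ) : ℝ) =
      ∑ i ∈ Finset.range (j + 1), cycCnt l (p ^ i) := fun j => by
    haveI : NeZero (p ^ j) := ⟨pow_ne_zero _ hp.ne_zero⟩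
    have h := card_conductor_mem l (p ^ j).divisors fun d hd => Nat.dvd_of_mem_divisors hd
    rw [Nat.sum_divisors_prime_pow hp, Nat.card_congr (Equiv.subtypeEquivRight
      fun χ : DirichletCharacter ℂ (p ^ j) =>
        show χ ^ l = 1 ∧ χ.conductor ∈ (p ^ j).divisors ↔ χ ^ l = 1 from
          and_iff_left (Nat.mem_divisors.mpr ⟨χ.conductor_dvd_level, pow_ne_zero _ hp.ne_zero⟩)),
      card_pow_eq_one l hl2 hp] at h
    exact h
  have h := (hsum (k + 1)).symm
  rw [Finset.sum_range_succ, ← hsum k, ← eq_sub_iff_add_eq'] at h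
  rw [h]
  have hgcd : ∀ j, ((Nat.totient (p ^ (j + 1))).gcd l) =
      if p % l = 1 ∨ (p = l ∧ 1 ≤ j) then l else 1 := fun j => by
    rw [Nat.totient_prime_pow_succ hp]
    split_ifs with hc
    · refine Nat.gcd_eq_right ?_
      rcases hc with hc | ⟨rfl, hj⟩
      · exact dvd_mul_of_dvd_right ⟨p / l, by have := Nat.div_add_mod p l; omega⟩ _
      · exact dvd_mul_of_dvd_left (dvd_pow_self _ (by omega)) _
    · refine (hl.out.coprime_iff_not_dvd.mpr fun hd => hc ?_).symm
      rcases (Nat.Prime.dvd_mul hl.out).mp hd with hd | hd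
      · exact Or.inr ⟨((Nat.prime_dvd_prime_iff_eq hl.out hp).mp (hl.out.dvd_of_dvd_pow hd)).symm,
          Nat.one_le_iff_ne_zero.mpr fun h0 => hl.out.not_dvd_one (by simpa [h0] using hd)⟩
      · obtain ⟨c, hc'⟩ := hd
        refine Or.inl ?_
        rw [show p = 1 + l * c by have := hp.one_lt; omega, Nat.add_mul_mod_self_left,
          Nat.mod_eq_of_lt hl.out.one_lt]
  have hpl : p % l = 1 → p ≠ l := fun h e => by simp [e] at h
  rcases k with _ | k
  · rw [hgcd]
    simp only [pow_zero, Nat.totient_one, Nat.gcd_one_left, Nat.cast_one, not_le.mpr zero_lt_one,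
      and_false, or_false, zero_ne_one, and_true]
    split_ifs <;> simp
  · rw [hgcd, hgcd]
    by_cases h1 : p % l = 1
    · simp [h1, hpl h1]
    · by_cases h2 : p = l
      · subst h2
        rcases k with _ | k <;> simp
      · simp [h1, h2]

theorem tame_cycCnt (hl2 : l ≠ 2) : Tame (cycCnt l) 3 l := by
  have h1 : (1 : ℝ) ≤ l := Nat.one_le_cast.mpr hl.out.one_lt.le
  intro p hp e
  rcases e with _ | k
  · rw [pow_zero, (cycCnt_isMultiplicative l).map_one, abs_one]
    exact ⟨fun h => absurd h (by omega), h1⟩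
  · rw [cycCnt_prime_pow l hl2 hp]
    refine ⟨fun h => if_neg (by omega), ?_⟩
    split_ifs
    · rw [abs_of_nonneg (by linarith)]; linarith
    · rw [abs_zero]; positivity

end FA.ElementaryAbelianCount
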