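import Fermat.Agent.AbelianQuartic.Fields

/-!
# Abelian fields of bounded discriminant as groups of characters

The abelian fields of degree `n` in `ℂ` with `|d| ≤ X` are the groups of `n` characters mod `N`
whose conductors have product at most `X`, for every `N` divisible by all `d ≤ X`; the exponent of
the Galois group is that of the group of characters.
-/

set_option autoImplicit false
set_option linter.style.haveILetI false

noncomputable section

open NumberField DirichletCharacter IntermediateField Module
open FA.CubicCount (rootsField rootsField_mono exists_le_rootsField)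
open FA.AbelianQuartic (charsField charsField_basic charsField_injective condProd)
open scoped Classical Nat

namespace FA.ElementaryAbelianCount

/-- The abelian fields of degree `n` in `ℂ` with bounded discriminant. -/
def abelianFields (n X : ℕ) : Set (IntermediateField ℚ ℂ) :=
  {F | finrank ℚ F = n ∧ IsAbelianGalois ℚ F ∧ ∃ _ : NumberField F, (discr F).natAbs ≤ X}

variable (N : ℕ) [NeZero N]

/-- The groups of `n` characters with small product of conductors. -/
def charGroups (n X : ℕ) : Finset (Subgroup (DirichletCharacter ℂ N)) :=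
  (Set.toFinite
    {H : Subgroup (DirichletCharacter ℂ N) | Nat.card H = n ∧ condProd N H ≤ X}).toFinset

omit [NeZero N] in
theorem mem_charGroups {n X : ℕ} {H : Subgroup (DirichletCharacter ℂ N)} :
    H ∈ charGroups N n X ↔ Nat.card H = n ∧ condProd N H ≤ X :=
  Set.Finite.mem_toFinset _

set_option backward.isDefEq.respectTransparency false in
theorem isAbelianGalois_charsField (H : Subgroup (DirichletCharacter ℂ N)) :
    IsAbelianGalois ℚ (charsField N H) := by
  set E := (IsCyclotomicExtension.Rat.intermediateFieldEquivSubgroupChar N (rootsField N) ℂ).symm H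
  haveI : IsAbelianGalois ℚ E := inferInstance
  exact IsAbelianGalois.of_algHom (liftAlgEquiv E).symm.toAlgHom

set_option backward.isDefEq.respectTransparency false in
/-- **The exponent of the Galois group.** -/
theorem pow_eq_one_charsField_iff (H : Subgroup (DirichletCharacter ℂ N)) (k : ℕ) :
    (∀ τ : Gal(charsField N H/ℚ), τ ^ k = 1) ↔ ∀ χ ∈ H, χ ^ k = 1 := by
  set iso := IsCyclotomicExtension.Rat.intermediateFieldEquivSubgroupChar N (rootsField N) ℂ
    with hiso
  set E := iso.symm H with hE
  haveI : IsGalois ℚ E := inferInstance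
  let e : Gal(charsField N H/ℚ) ≃* Gal(E/ℚ) := (liftAlgEquiv E).symm.autCongr
  have hmem : ∀ χ, χ ∈ H ↔ ∀ σ : Gal(rootsField N/ℚ), σ ∈ E.fixingSubgroup →
      χ (IsCyclotomicExtension.Rat.galEquivZMod N (rootsField N) σ) = 1 := fun χ => by
    conv_lhs => rw [← iso.apply_symm_apply H]
    exact IsCyclotomicExtension.Rat.mem_intermediateFieldEquivSubgroupChar_iff N (rootsField N) ℂ
      E χ
  have hfix : ∀ σ : Gal(rootsField N/ℚ), (∀ χ ∈ H,
      χ (IsCyclotomicExtension.Rat.galEquivZMod N (rootsField N) σ) = 1) →
        σ ∈ E.fixingSubgroup := by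
    intro σ hσ
    set G := IsCyclotomicExtension.Rat.subgroupGalEquivSubgroupChar N (rootsField N) ℂ
    have hG : (G E.fixingSubgroup).ofDual = H := by
      ext χ
      rw [IsCyclotomicExtension.Rat.mem_subgroupGalEquivSubgroupChar_iff, hmem]
    have h := (IsCyclotomicExtension.Rat.mem_subgroupGalEquivSubgroupChar_symm_iff N
      (rootsField N) ℂ σ H).mpr hσ
    rwa [← hG, OrderDual.toDual_ofDual, OrderIso.symm_apply_apply] at h
  have hres : ∀ σ : Gal(rootsField N/ℚ),
      σ.restrictNormal E = 1 ↔ σ ∈ E.fixingSubgroup := fun σ => by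
    rw [AlgEquiv.restrictNormal_eq_one_iff, IntermediateField.mem_fixingSubgroup_iff]
  constructor
  · intro hc χ hχ
    refine MulChar.ext fun u => ?_
    obtain ⟨σ, rfl⟩ := (IsCyclotomicExtension.Rat.galEquivZMod N (rootsField N)).surjective u
    have h2 : σ ^ k ∈ E.fixingSubgroup := (hres _).mp (by
      show AlgEquiv.restrictNormalHom (F := ℚ) E (σ ^ k) = 1
      rw [map_pow]
      have := congrArg e (hc (e.symm (AlgEquiv.restrictNormalHom (F := ℚ) E σ)))
      rwa [map_pow, MulEquiv.apply_symm_apply, map_one] at this)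
    have h := (hmem χ).mp hχ _ h2
    rw [map_pow, Units.val_pow_eq_pow_val, map_pow] at h
    rw [MulChar.pow_apply_coe, h, MulChar.one_apply_coe]
  · intro hc τ
    refine e.injective ?_
    rw [map_pow, map_one]
    obtain ⟨σ, hσ⟩ := AlgEquiv.restrictNormalHom_surjective (F := ℚ) (K₁ := E)
      (E := rootsField N) (e τ)
    rw [← hσ, ← map_pow]
    refine (hres _).mpr (hfix _ fun χ hχ => ?_)
    rw [map_pow, Units.val_pow_eq_pow_val, map_pow, ← MulChar.pow_apply_coe, hc χ hχ,
      MulChar.one_apply_coe]

variable {N}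

set_option backward.isDefEq.respectTransparency false in
/-- **All the fields come from groups.** -/
theorem image_charGroups {n X : ℕ} (hN : ∀ d, d ≠ 0 → d ≤ X → d ∣ N) :
    charsField N '' (charGroups N n X : Set (Subgroup (DirichletCharacter ℂ N))) =
      abelianFields n X := by
  ext F
  constructor
  · rintro ⟨H, hH, rfl⟩
    obtain ⟨hn, hd⟩ := (mem_charGroups N).mp (Finset.mem_coe.mp hH)
    obtain ⟨hr, -, hnf, hD⟩ := charsField_basic N H
    exact ⟨hr.trans hn, isAbelianGalois_charsField N H, hnf, hD.trans_le hd⟩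
  · rintro ⟨hn, hab, hnf, hd⟩
    have hdN : (discr F).natAbs ∣ N := hN _ (Int.natAbs_ne_zero.mpr (discr_ne_zero F)) hd
    obtain ⟨m, hNm, hm, hle⟩ := exists_le_rootsField F N
    haveI : NeZero m := ⟨hm⟩
    have hle' : F ≤ rootsField N := by
      have hK := rootsField_mono hNm hm
      haveI : IsCyclotomicExtension {N} ℚ (restrict hK) :=
        IsCyclotomicExtension.equiv {N} ℚ _ (restrictAlgEquiv hK)
      haveI : IsGalois ℚ (restrict hK) := IsCyclotomicExtension.isGalois {N} ℚ _
      have hprod := FA.ConductorDiscr.discr_eq_prod (n := m) (rootsField m) (restrict hle)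
        (restrictAlgEquiv hle).toRingEquiv
      have hsub : FA.AbelianZeta.fieldChars m (rootsField m) (restrict hle) ≤
          FA.AbelianZeta.fieldChars m (rootsField m) (restrict hK) := fun χ hχ => by
        rw [FA.AbelianZeta.fieldChars,
          IsCyclotomicExtension.Rat.mem_intermediateFieldEquivSubgroupChar_iff_conductor_dvd m
            (rootsField m) ℂ _ hNm]
        refine Dvd.dvd.trans ?_ hdN
        rw [hprod]
        exact Finset.dvd_prod_of_mem _ (Finset.mem_filter.mpr ⟨Finset.mem_univ _, hχ⟩)
      have h := (IsCyclotomicExtension.Rat.intermediateFieldEquivSubgroupChar m (rootsField m)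
        ℂ).le_iff_le.mp hsub
      intro x hx
      exact (mem_restrict hK ⟨x, hle hx⟩).mp (h ((mem_restrict hle ⟨x, hle hx⟩).mpr hx))
    refine ⟨FA.AbelianZeta.fieldChars N (rootsField N) (restrict hle'),
      Finset.mem_coe.mpr ((mem_charGroups N).mpr ⟨?_, ?_⟩), ?_⟩
    · rw [FA.AbelianZeta.fieldChars,
        IsCyclotomicExtension.Rat.card_intermediateFieldEquivSubgroupChar]
      exact (restrictAlgEquiv hle').toLinearEquiv.finrank_eq.symm.trans hn
    · refine le_of_eq_of_le ?_ hd
      rw [FA.ConductorDiscr.discr_eq_prod (n := N) (rootsField N) (restrict hle')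
        (restrictAlgEquiv hle').toRingEquiv, condProd]
    · rw [charsField, FA.AbelianZeta.fieldChars, OrderIso.symm_apply_apply, lift_restrict]

theorem finite_abelianFields (n X : ℕ) : (abelianFields n X).Finite := by
  haveI : NeZero X ! := ⟨Nat.factorial_ne_zero X⟩
  rw [← image_charGroups (N := X !) fun d h0 h =>
    Nat.dvd_factorial (Nat.pos_of_ne_zero h0) h]
  exact (Finset.finite_toSet _).image _

/-- The abelian fields whose group has exponent dividing `k`. -/
theorem ncard_exponent {n X : ℕ} (k : ℕ) (hN : ∀ d, d ≠ 0 → d ≤ X → d ∣ N) :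
    {F | F ∈ abelianFields n X ∧ ∀ τ : Gal(F/ℚ), τ ^ k = 1}.ncard =
      ((charGroups N n X).filter fun H => ∀ χ ∈ H, χ ^ k = 1).card := by
  rw [← Set.ncard_coe_finset, ← Set.ncard_image_of_injective _ (charsField_injective N)]
  congr 1
  ext F
  rw [← image_charGroups hN]
  constructor
  · rintro ⟨⟨H, hH, rfl⟩, hc⟩
    exact ⟨H, Finset.mem_coe.mpr (Finset.mem_filter.mpr
      ⟨hH, (pow_eq_one_charsField_iff N H k).mp hc⟩), rfl⟩
  · rintro ⟨H, hH, rfl⟩
    obtain ⟨hH1, hH2⟩ := Finset.mem_filter.mp (Finset.mem_coe.mp hH)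
    exact ⟨⟨H, hH1, rfl⟩, (pow_eq_one_charsField_iff N H k).mpr hH2⟩

theorem ncard_abelianFields {n X : ℕ} (hN : ∀ d, d ≠ 0 → d ≤ X → d ∣ N) :
    (abelianFields n X).ncard = (charGroups N n X).card := by
  rw [← image_charGroups hN, Set.ncard_image_of_injective _ (charsField_injective N),
    Set.ncard_coe_finset]

end FA.ElementaryAbelianCount
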