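import Fermat.Agent.AbelianQuartic.Local
import Fermat.Agent.ElementaryAbelianCount.Tuples

/-!
# The tuples at the prime powers

At an odd prime a tuple is a vector, its product of conductors `p` to the number of combinations
not orthogonal to it; at two it is a pair of vectors. With `q = 2 ^ r - 1` and `K = 2 ^ (r - 1)`
the counts are `q` at `p ^ K` and `q`, `2 q`, `q (q - 1)` at `2 ^ (2 K)`, `2 ^ (3 K)`, `2 ^ (4 K)`.
-/

set_option autoImplicit false
set_option linter.style.haveILetI false

noncomputable section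

open DirichletCharacter Finset
open FA.AbelianQuartic (char16 char16_add char16_injective char16_surjective char16_conductor
  char16_zero twoExp16 conductor_dvd_prime conductor_dvd_sixteen exists_model_prime)

namespace FA.ElementaryAbelianCount

variable {r : ℕ}

/-- The scalar product. -/
def dotVec (a w : Fin r → ZMod 2) : ZMod 2 := ∑ i, a i * w i

theorem dotVec_add_left (a a' w : Fin r → ZMod 2) :
    dotVec (a + a') w = dotVec a w + dotVec a' w := by
  simp only [dotVec, Pi.add_apply, add_mul, sum_add_distrib]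

/-- `0` or `1`. -/
def bitNat {A : Type*} [Zero A] [DecidableEq A] (x : A) : ℕ := if x = 0 then 0 else 1

theorem sum_bit_dotVec (hr : 1 ≤ r) (a : Fin r → ZMod 2) :
    ∑ w, bitNat (dotVec a w) = 2 ^ (r - 1) * bitNat a := by
  unfold bitNat
  split_ifs with h
  · rw [mul_zero]
    refine sum_eq_zero fun w _ => if_pos ?_
    simp [dotVec, h]
  · rw [mul_one]
    obtain ⟨i, hi⟩ : ∃ i, a i = 1 := by
      by_contra hc
      push Not at hc
      refine h (funext fun i => ?_)
      have := hc i
      show a i = 0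
      revert this
      generalize a i = x
      revert x
      decide
    have hflip : ∀ w, dotVec a (w + Pi.single i 1) = dotVec a w + 1 := fun w => by
      simp only [dotVec, Pi.add_apply, mul_add, sum_add_distrib]
      have h1 : ∑ j, a j * (Pi.single i 1 : Fin r → ZMod 2) j = 1 := by
        rw [sum_eq_single i (fun j _ hj => by rw [Pi.single_eq_of_ne hj, mul_zero])
          (fun h => absurd (mem_univ i) h), Pi.single_eq_same, hi, mul_one]
      rw [h1]
    set f := fun w : Fin r → ZMod 2 => if dotVec a w = 0 then 0 else 1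
    have h2 : ∑ w, f w + ∑ w : Fin r → ZMod 2, f (w + Pi.single i 1) = 2 ^ r := by
      rw [← sum_add_distrib]
      refine (sum_congr rfl (g := fun _ => 1) fun w _ => ?_).trans (by simp)
      simp only [f, hflip]
      generalize dotVec a w = x
      revert x
      decide
    rw [show ∑ w : Fin r → ZMod 2, f (w + Pi.single i 1) = ∑ w, f w from
      Equiv.sum_comp (Equiv.addRight (Pi.single i 1 : Fin r → ZMod 2)) f] at h2
    change univ.sum f + univ.sum f = 2 ^ r at h2
    have h3 : 2 ^ r = 2 * 2 ^ (r - 1) := by rw [← pow_succ', Nat.sub_add_cancel hr]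
    omega

section Emb

variable {M : Type*} [CommMonoid M] {A : Type*} [AddCommMonoid A]

theorem emb_sum (emb : A → M) (h0 : emb 0 = 1) (hadd : ∀ a b, emb (a + b) = emb a * emb b)
    {ι : Type*} [Fintype ι] (f : ι → A) : emb (∑ i, f i) = ∏ i, emb (f i) := by
  classical
  refine Finset.induction_on (motive := fun s => emb (∑ i ∈ s, f i) = ∏ i ∈ s, emb (f i))
    univ (by rw [sum_empty, prod_empty, h0]) fun a s ha ih => ?_
  rw [sum_insert ha, prod_insert ha, hadd, ih]

theorem comb_emb (emb : A → M) (h0 : emb 0 = 1) (hadd : ∀ a b, emb (a + b) = emb a * emb b)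
    (a : Fin r → A) (w : Fin r → ZMod 2) :
    comb (fun i => emb (a i)) w = emb (∑ i, (w i).val • a i) := by
  rw [emb_sum emb h0 hadd, comb]
  refine prod_congr rfl fun i _ => ?_
  generalize (w i).val = j
  induction j with
  | zero => rw [zero_smul, h0, pow_zero]
  | succ j ih => rw [succ_nsmul, hadd, pow_succ, ih]

end Emb

theorem val_smul_zmod (w x : ZMod 2) : w.val • x = x * w := by revert w x; decide

theorem tally_of_model {N : ℕ} [NeZero N] {A : Type} [AddCommGroup A] [Fintype A] [DecidableEq A]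
    (emb : A → DirichletCharacter ℂ N) (h0 : emb 0 = 1)
    (hadd : ∀ a b, emb (a + b) = emb a * emb b) (hinj : Function.Injective emb)
    (htwo : ∀ a : A, a + a = 0) (hcov : ∀ χ, χ ^ 2 = 1 → ∃ a, emb a = χ) {P : ℕ} (hP : 2 ≤ P)
    (ex : A → ℕ) (hex : ∀ a, (emb a).conductor = P ^ ex a) (e : ℕ) :
    tupleTally r N (P ^ e) = (univ.filter fun a : Fin r → A =>
      ∑ w : Fin r → ZMod 2, ex (∑ i, (w i).val • a i) = e).card := by
  have hD : ∀ a : Fin r → A, tupleCond (fun i => emb (a i)) =
      P ^ ∑ w : Fin r → ZMod 2, ex (∑ i, (w i).val • a i) := fun a => by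
    rw [tupleCond, ← prod_pow_eq_pow_sum]
    exact prod_congr rfl fun w _ => by rw [comb_emb emb h0 hadd, hex]
  have hiff : ∀ a : Fin r → A,
      (Killed (fun i => emb (a i)) ∧ tupleCond (fun i => emb (a i)) = P ^ e) ↔
        a ∈ univ.filter fun a : Fin r → A =>
          ∑ w : Fin r → ZMod 2, ex (∑ i, (w i).val • a i) = e := fun a => by
    rw [hD, (Nat.pow_right_injective hP).eq_iff, mem_filter]
    exact ⟨fun h => ⟨mem_univ _, h.2⟩,
      fun h => ⟨fun i => by rw [pow_two, ← hadd, htwo, h0], h.2⟩⟩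
  rw [← Nat.card_eq_finsetCard]
  refine (Nat.card_congr (Equiv.ofBijective
    (fun a : univ.filter fun a : Fin r → A =>
        ∑ w : Fin r → ZMod 2, ex (∑ i, (w i).val • a i) = e =>
      (⟨fun i => emb (a.1 i), (hiff a.1).mpr a.2⟩ :
      {v : CharTuple r N // Killed v ∧ tupleCond v = P ^ e}))
    ⟨fun a a' h => Subtype.ext (funext fun i =>
      hinj (congrFun (congrArg Subtype.val h) i)), fun v => ?_⟩)).symm
  obtain ⟨v, hv, hd⟩ := v
  choose a ha using fun i => hcov (v i) (hv i)
  obtain rfl : (fun i => emb (a i)) = v := funext ha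
  exact ⟨⟨a, (hiff a).mp ⟨hv, hd⟩⟩, rfl⟩

/-! ### Odd primes -/

theorem tupleTally_odd (hr : 1 ≤ r) {p : ℕ} (hp : p.Prime) (hp2 : p ≠ 2) (e : ℕ) :
    tupleTally r (p ^ (e + 1)) (p ^ (e + 1)) =
      if e + 1 = 2 ^ (r - 1) then 2 ^ r - 1 else 0 := by
  haveI : NeZero p := ⟨hp.ne_zero⟩
  haveI : NeZero (p ^ (e + 1)) := ⟨pow_ne_zero _ hp.ne_zero⟩
  rw [tupleTally_lower (dvd_pow_self p e.succ_ne_zero) _ fun v hv _ i =>
    conductor_dvd_prime hp hp2 e (by rw [show 4 = 2 * 2 from rfl, pow_mul, hv i, one_pow])]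
  obtain ⟨χ₀, hord, hcov⟩ := exists_model_prime hp hp2
  set g := if p % 4 = 1 then 4 else 2 with hg
  obtain ⟨q, hgq, hq⟩ : ∃ q, g = 2 * q ∧ 0 < q := by
    rw [hg]; split_ifs <;> [exact ⟨2, rfl, two_pos⟩; exact ⟨1, rfl, one_pos⟩]
  set η := χ₀ ^ q
  have hη2 : η ^ 2 = 1 := by rw [← pow_mul, mul_comm, ← hgq, ← hord, pow_orderOf_eq_one]
  have hη1 : η ≠ 1 := fun h => by
    have := Nat.le_of_dvd hq (orderOf_dvd_iff_pow_eq_one.mpr h)
    omega
  have hηc : η.conductor = p :=
    (hp.eq_one_or_self_of_dvd _ (conductor_dvd_level _)).resolve_left fun h =>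
      hη1 (eq_one_iff_conductor_eq_one.mpr h)
  rw [tally_of_model (fun x : ZMod 2 => η ^ x.val) (by simp) (fun a b => ?_) (fun a b h => ?_)
    (fun a => by revert a; decide) (fun χ hχ => ?_) hp.two_le (fun x => bitNat x) (fun x => ?_)]
  · have key : ∀ a : Fin r → ZMod 2,
        ∑ w : Fin r → ZMod 2, bitNat (∑ i, (w i).val • a i) = 2 ^ (r - 1) * bitNat a := fun a => by
      simp only [val_smul_zmod]
      exact sum_bit_dotVec hr a
    simp only [key]
    unfold bitNat
    split_ifs with he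
    · rw [show (univ.filter fun a : Fin r → ZMod 2 =>
          2 ^ (r - 1) * (if a = 0 then 0 else 1) = e + 1) = univ.erase 0 by
        ext a
        by_cases ha : a = 0 <;> simp [ha, he, (Nat.two_pow_pos (r - 1)).ne]]
      simp
    · rw [card_eq_zero, filter_eq_empty_iff]
      intro a _
      split_ifs <;> simp
      omega
  · rw [← pow_add, ZMod.val_add]
    exact (pow_eq_pow_mod _ hη2).symm
  · revert h
    fin_cases a <;> fin_cases b <;> simp [ZMod.val, hη1, hη1.symm]
  · have hχ4 : χ ^ 4 = 1 := by rw [show 4 = 2 * 2 from rfl, pow_mul, hχ, one_pow]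
    obtain ⟨j, rfl⟩ := hcov χ hχ4
    rw [← pow_mul, ← orderOf_dvd_iff_pow_eq_one, hord, hgq, mul_comm j] at hχ
    obtain ⟨i, rfl⟩ := (Nat.mul_dvd_mul_iff_left two_pos).mp hχ
    refine ⟨(i : ZMod 2), ?_⟩
    rw [ZMod.val_natCast, ← pow_eq_pow_mod _ hη2, ← pow_mul]
  · rcases (show ∀ y : ZMod 2, y = 0 ∨ y = 1 by decide) x with rfl | rfl <;>
      simp [bitNat, hηc, conductor_one, show (1 : ZMod 2).val = 1 from rfl]

/-! ### The prime two -/

/-- The quadratic characters mod `16` in coordinates. -/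
def quad16 (x : ZMod 2 × ZMod 2) : DirichletCharacter ℂ 16 :=
  char16 (x.1, ((2 * x.2.val : ℕ) : ZMod 4))

theorem twoExp_quad16 : ∀ x : ZMod 2 × ZMod 2, twoExp16 (x.1, ((2 * x.2.val : ℕ) : ZMod 4)) =
    bitNat x.1 + 2 * bitNat x.2 + bitNat (x.1 + x.2) := by decide +kernel

theorem quad16_coord : ∀ a : ZMod 2 × ZMod 4, a + a = 0 →
    ∃ x : ZMod 2 × ZMod 2, (x.1, ((2 * x.2.val : ℕ) : ZMod 4)) = a := by decide +kernel

theorem quad16_injective : Function.Injective quad16 := fun a b h => by
  have h' := char16_injective h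
  clear h
  revert h'
  revert a b
  decide +kernel

/-- The level sum of a pair of vectors. -/
def twoWeight (a : Fin r → ZMod 2 × ZMod 2) : ℕ :=
  bitNat (fun i => (a i).1) + 2 * bitNat (fun i => (a i).2) +
    bitNat (fun i => (a i).1 + (a i).2)

theorem tupleTally_two_sixteen (hr : 1 ≤ r) (e : ℕ) :
    tupleTally r 16 (2 ^ e) = (univ.filter fun a : Fin r → ZMod 2 × ZMod 2 =>
      2 ^ (r - 1) * twoWeight a = e).card := by
  rw [tally_of_model quad16 (by
      show char16 _ = 1
      rw [show (((0 : ZMod 2 × ZMod 2).1, ((2 * (0 : ZMod 2 × ZMod 2).2.val : ℕ) : ZMod 4))) = 0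
        by decide +kernel, char16_zero])
    (fun a b => by
      rw [quad16, quad16, quad16, ← char16_add]
      congr 1
      revert a b
      decide +kernel)
    quad16_injective (fun a => by revert a; decide +kernel) (fun χ hχ => ?_) le_rfl
    (fun x => bitNat x.1 + 2 * bitNat x.2 + bitNat (x.1 + x.2)) fun x => ?_]
  · refine congrArg card (filter_congr fun a _ => ?_)
    have key : ∀ w : Fin r → ZMod 2, ∑ i, (w i).val • a i =
        (dotVec (fun i => (a i).1) w, dotVec (fun i => (a i).2) w) := fun w => by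
      refine Prod.ext ?_ ?_ <;> simp only [Prod.fst_sum, Prod.snd_sum, Prod.smul_fst,
        Prod.smul_snd, dotVec, val_smul_zmod]
    simp only [key, sum_add_distrib, ← mul_sum, sum_bit_dotVec hr, ← dotVec_add_left]
    unfold twoWeight
    simp only [Pi.add_def]
    constructor <;> intro h <;> rw [← h] <;> ring
  · obtain ⟨a, rfl⟩ := char16_surjective χ
    rw [pow_two, ← char16_add, ← char16_zero] at hχ
    obtain ⟨x, hx⟩ := quad16_coord a (char16_injective hχ)
    exact ⟨x, by rw [quad16, hx]⟩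
  · rw [quad16, char16_conductor, twoExp_quad16]

/-- The counts at two. -/
def twoVal (r j : ℕ) : ℕ :=
  if j = 0 then 1 else if j = 2 then 2 ^ r - 1 else if j = 3 then 2 * (2 ^ r - 1)
    else if j = 4 then (2 ^ r - 1) * (2 ^ r - 2) else 0

theorem card_twoWeight (j : ℕ) :
    (univ.filter fun a : Fin r → ZMod 2 × ZMod 2 => twoWeight a = j).card = twoVal r j := by
  let V := Fin r → ZMod 2
  let E : (Fin r → ZMod 2 × ZMod 2) ≃ V × V := Equiv.arrowProdEquivProdArrow (Fin r) _ _
  have h1 : ∀ a : Fin r → ZMod 2 × ZMod 2, twoWeight a =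
      bitNat (E a).1 + 2 * bitNat (E a).2 + bitNat ((E a).1 + (E a).2) := fun a => rfl
  rw [show (univ.filter fun a : Fin r → ZMod 2 × ZMod 2 => twoWeight a = j) =
      (univ.filter fun v : V × V =>
        bitNat v.1 + 2 * bitNat v.2 + bitNat (v.1 + v.2) = j).map E.symm.toEmbedding by
    ext a
    simp only [mem_filter, mem_map_equiv, mem_univ, true_and, Equiv.symm_symm, h1], card_map]
  have hself : ∀ x : V, x + x = 0 := fun x => funext fun i => by
    show x i + x i = 0
    generalize x i = y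
    revert y
    decide
  have hadd : ∀ x y : V, x + y = 0 ↔ x = y := fun x y =>
    ⟨fun h => by
      have := congrArg (· + y) h
      simpa [add_assoc, hself] using this, fun h => h ▸ hself x⟩
  have hw : ∀ v : V × V, bitNat v.1 + 2 * bitNat v.2 + bitNat (v.1 + v.2) =
      if v.2 = 0 then (if v.1 = 0 then 0 else 2) else
        if v.1 = 0 ∨ v.1 = v.2 then 3 else 4 := fun v => by
    obtain ⟨x, y⟩ := v
    unfold bitNat
    by_cases hx : x = 0 <;> by_cases hy : y = 0 <;> by_cases hxy : x = y <;>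
      simp_all
  simp only [hw]
  set nz : Finset V := univ.erase 0
  have hnz : nz.card = 2 ^ r - 1 := by
    rw [card_erase_of_mem (mem_univ _), card_univ]
    simp [V]
  have hempty : j ≠ 0 → j ≠ 2 → j ≠ 3 → j ≠ 4 → (univ.filter fun v : V × V =>
      (if v.2 = 0 then (if v.1 = 0 then 0 else 2) else
        if v.1 = 0 ∨ v.1 = v.2 then 3 else 4) = j).card = 0 := by
    intro a b c d
    rw [card_eq_zero, filter_eq_empty_iff]
    intro v _
    split_ifs <;> omega
  unfold twoVal
  split_ifs with j0 j2 j3 j4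
  · subst j0
    rw [card_eq_one]
    refine ⟨(0, 0), ?_⟩
    ext ⟨x, y⟩
    simp only [mem_filter, mem_univ, true_and, mem_singleton, Prod.mk.injEq]
    split_ifs <;> simp_all
  · subst j2
    rw [← hnz, ← card_map ⟨fun x : V => (x, (0 : V)), fun _ _ h => congrArg Prod.fst h⟩]
    congr 1
    ext ⟨x, y⟩
    simp only [mem_filter, mem_univ, true_and, mem_map, Function.Embedding.coeFn_mk, nz, mem_erase,
      and_true, Prod.mk.injEq]
    split_ifs <;> simp_all [eq_comm]
  · subst j3
    rw [← hnz, two_mul]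
    nth_rewrite 1 [← card_map ⟨fun y : V => ((0 : V), y), fun _ _ h => congrArg Prod.snd h⟩]
    rw [← card_map (s := nz) ⟨fun y : V => (y, y), fun _ _ h => congrArg Prod.fst h⟩,
      ← card_union_of_disjoint]
    · congr 1
      ext ⟨x, y⟩
      simp only [mem_filter, mem_univ, true_and, mem_union, mem_map, Function.Embedding.coeFn_mk,
        nz, mem_erase, and_true, Prod.mk.injEq]
      split_ifs <;> simp_all [eq_comm]
      tauto
    · rw [disjoint_left]
      rintro ⟨x, y⟩ h h'
      simp only [mem_map, Function.Embedding.coeFn_mk, nz, mem_erase, and_true, mem_univ,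
        Prod.mk.injEq] at h h'
      obtain ⟨a, ha, rfl, rfl⟩ := h
      obtain ⟨b, hb, hb1, -⟩ := h'
      exact hb hb1
  · subst j4
    rw [show (univ.filter fun v : V × V => (if v.2 = 0 then (if v.1 = 0 then 0 else 2) else
        if v.1 = 0 ∨ v.1 = v.2 then 3 else 4) = 4) = nz.offDiag by
      ext ⟨x, y⟩
      simp only [mem_filter, mem_univ, true_and, mem_offDiag, nz, mem_erase, and_true]
      split_ifs <;> simp_all
      tauto, offDiag_card, hnz]
    rw [show 2 ^ r - 2 = 2 ^ r - 1 - 1 by omega, Nat.mul_sub_left_distrib _ (2 ^ r - 1) 1, mul_one]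
  · exact hempty j0 j2 j3 j4

theorem tupleTally_two (hr : 1 ≤ r) (e : ℕ) : tupleTally r (2 ^ e) (2 ^ e) =
    if 2 ^ (r - 1) ∣ e then twoVal r (e / 2 ^ (r - 1)) else 0 := by
  have h16 : tupleTally r (2 ^ e) (2 ^ e) = tupleTally r 16 (2 ^ e) := by
    rcases le_or_gt e 4 with h | h
    · refine (tupleTally_eq (show 2 ^ e ∣ 16 from ?_)).symm
      rw [show (16 : ℕ) = 2 ^ 4 from rfl]
      exact pow_dvd_pow 2 h
    · obtain ⟨i, rfl⟩ : ∃ i, e = i + 4 := ⟨e - 4, by omega⟩
      exact tupleTally_lower ⟨2 ^ i, by rw [pow_add, mul_comm]; norm_num⟩ _ fun v hv _ j =>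
        conductor_dvd_sixteen i ((pow_mul (v j) 2 2).trans (by rw [hv j, one_pow]))
  rw [h16, tupleTally_two_sixteen hr]
  split_ifs with hd
  · obtain ⟨j, rfl⟩ := hd
    rw [Nat.mul_div_cancel_left _ (Nat.two_pow_pos _), ← card_twoWeight j]
    refine congrArg card (filter_congr fun a _ => ?_)
    exact Nat.mul_right_inj (Nat.two_pow_pos _).ne'
  · rw [card_eq_zero, filter_eq_empty_iff]
    exact fun a _ h => hd ⟨_, h.symm⟩

theorem tupleCnt_odd (hr : 1 ≤ r) {p : ℕ} (hp : p.Prime) (hp2 : p ≠ 2) (e : ℕ) :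
    tupleCnt r (p ^ (e + 1)) = if e + 1 = 2 ^ (r - 1) then (2 : ℝ) ^ r - 1 else 0 := by
  rw [tupleCnt_apply (pow_ne_zero _ hp.ne_zero), tupleTally_odd hr hp hp2]
  split_ifs
  · rw [Nat.cast_sub Nat.one_le_two_pow]; norm_num
  · rw [Nat.cast_zero]

theorem tupleCnt_two (hr : 1 ≤ r) (e : ℕ) : tupleCnt r (2 ^ e) =
    if 2 ^ (r - 1) ∣ e then (twoVal r (e / 2 ^ (r - 1)) : ℝ) else 0 := by
  rw [tupleCnt_apply (pow_ne_zero e two_ne_zero), tupleTally_two hr]
  split_ifs <;> simp

end FA.ElementaryAbelianCount
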