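import Fermat.Agent.AbelianQuartic.Means
import Fermat.Agent.ElementaryAbelianCount.TwoLocal

/-!
# The mean value of the tuples

With `q = 2 ^ r - 1` and `K = 2 ^ (r - 1)` the products of the conductors are `K`-th powers, and
the count at `n ^ K` is `h * d_q` with `h` vanishing at the odd primes; so the tuples with product
at most `x` are asymptotic to a multiple of `x ^ (1 / K) (log x) ^ (q - 1)`.
-/

set_option autoImplicit false
set_option linter.style.haveILetI false

noncomputable section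

open ArithmeticFunction Filter Topology Finset
open FA.AbelianQuartic (partialSum mean_convolution summable_of_local hasProd_series locSum Tame
  step_mul locSum_step locSum_eq_sum isStep_moebius divFun divFun_eq divFun_mean
  moebius_cast_isMultiplicative)
open scoped Classical ArithmeticFunction.Moebius ArithmeticFunction.zeta Nat

namespace FA.ElementaryAbelianCount

variable {r : ℕ}

/-- `2 ^ r - 1`, the number of quadratic subfields. -/
def subCount (r : ℕ) : ℕ := 2 ^ r - 1

/-- `2 ^ (r - 1)`, the exponent of a tame prime in the discriminant. -/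
def tameExp (r : ℕ) : ℕ := 2 ^ (r - 1)

theorem tameExp_pos (r : ℕ) : 0 < tameExp r := Nat.two_pow_pos _

theorem subCount_cast (r : ℕ) : (subCount r : ℝ) = (2 : ℝ) ^ r - 1 := by
  rw [subCount, Nat.cast_sub Nat.one_le_two_pow]
  norm_num

theorem subCount_pos (hr : 1 ≤ r) : 1 ≤ subCount r := by
  have : 2 ^ 1 ≤ 2 ^ r := Nat.pow_le_pow_right two_pos hr
  unfold subCount
  omega

/-- The counts at the powers `n ^ K`. -/
def powCnt (r : ℕ) : ArithmeticFunction ℝ :=
  ⟨fun n => tupleCnt r (n ^ tameExp r), by simp [zero_pow (tameExp_pos r).ne']⟩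

theorem powCnt_apply (n : ℕ) : powCnt r n = tupleCnt r (n ^ tameExp r) := rfl

theorem powCnt_isMultiplicative : (powCnt r).IsMultiplicative := by
  refine IsMultiplicative.iff_ne_zero.mpr ⟨?_, fun {m n} _ _ hc => ?_⟩
  · rw [powCnt_apply, one_pow, tupleCnt_isMultiplicative.map_one]
  · rw [powCnt_apply, powCnt_apply, powCnt_apply, mul_pow,
      tupleCnt_isMultiplicative.map_mul_of_coprime (Nat.Coprime.pow _ _ hc)]

/-- **The products are perfect powers.** -/
theorem tupleCnt_eq_zero (hr : 1 ≤ r) {n : ℕ} (h : ∀ m, n ≠ m ^ tameExp r) :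
    tupleCnt r n = 0 := by
  suffices key : ∀ n, tupleCnt r n ≠ 0 → ∃ m, n = m ^ tameExp r by
    by_contra hn
    obtain ⟨m, hm⟩ := key n hn
    exact h m hm
  intro n
  induction n using Nat.recOnPosPrimePosCoprime with
  | zero => exact fun h => absurd ((tupleCnt r).map_zero) h
  | one => exact fun _ => ⟨1, (one_pow _).symm⟩
  | prime_pow p e hp he =>
    intro hne
    suffices tameExp r ∣ e by
      obtain ⟨j, rfl⟩ := this
      exact ⟨p ^ j, by rw [← pow_mul, mul_comm]⟩
    rcases eq_or_ne p 2 with rfl | hp2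
    · rw [tupleCnt_two hr] at hne
      by_contra hd
      exact hne (if_neg hd)
    · obtain ⟨i, rfl⟩ : ∃ i, e = i + 1 := ⟨e - 1, by omega⟩
      rw [tupleCnt_odd hr hp hp2] at hne
      by_contra hd
      refine hne (if_neg fun he' => hd ?_)
      rw [tameExp, he']
  | coprime a b _ _ hc iha ihb =>
    intro hne
    rw [tupleCnt_isMultiplicative.map_mul_of_coprime hc] at hne
    obtain ⟨m, rfl⟩ := iha (left_ne_zero_of_mul hne)
    obtain ⟨m', rfl⟩ := ihb (right_ne_zero_of_mul hne)
    exact ⟨m * m', (mul_pow _ _ _).symm⟩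

theorem le_floor_root_iff {K : ℕ} (hK : K ≠ 0) {x : ℝ} (hx : 0 ≤ x) (m : ℕ) :
    m ≤ ⌊x ^ ((K : ℝ)⁻¹)⌋₊ ↔ m ^ K ≤ ⌊x⌋₊ := by
  rw [Nat.le_floor_iff (Real.rpow_nonneg hx _), Nat.le_floor_iff hx,
    Real.le_rpow_inv_iff_of_pos (Nat.cast_nonneg m) hx (Nat.cast_pos.mpr (Nat.pos_of_ne_zero hK)),
    Real.rpow_natCast, Nat.cast_pow]

/-- The sums over the products are sums of the counts at the powers. -/
theorem partialSum_tupleCnt (hr : 1 ≤ r) {x : ℝ} (hx : 0 ≤ x) :
    partialSum (tupleCnt r) x = partialSum (powCnt r) (x ^ ((tameExp r : ℝ)⁻¹)) := by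
  have hK := (tameExp_pos r).ne'
  rw [partialSum, partialSum]
  refine (sum_of_injOn (fun m => m ^ tameExp r)
    (fun _ _ _ _ h => Nat.pow_left_injective hK h) (fun m hm => ?_) (fun n hn hne => ?_)
    fun m _ => powCnt_apply m).symm
  · rw [Finset.mem_coe, Finset.mem_Ioc] at hm ⊢
    exact ⟨pow_pos hm.1 _, (le_floor_root_iff hK hx m).mp hm.2⟩
  · refine tupleCnt_eq_zero hr fun m hm => hne ?_
    rw [Finset.mem_Ioc] at hn
    subst hm
    refine ⟨m, Finset.mem_coe.mpr (Finset.mem_Ioc.mpr ⟨?_, (le_floor_root_iff hK hx m).mpr hn.2⟩),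
      rfl⟩
    rcases m.eq_zero_or_pos with rfl | hm
    · simp [zero_pow hK] at hn
    · exact hm

theorem powCnt_odd (hr : 1 ≤ r) {p : ℕ} (hp : p.Prime) (hp2 : p ≠ 2) (e : ℕ) :
    powCnt r (p ^ e) = if e = 0 then 1 else if e = 1 then (subCount r : ℝ) else 0 := by
  rcases e.eq_zero_or_pos with rfl | he
  · rw [pow_zero, if_pos rfl, powCnt_isMultiplicative.map_one]
  obtain ⟨i, hi⟩ : ∃ i, e * tameExp r = i + 1 :=
    ⟨e * tameExp r - 1, by have := Nat.mul_pos he (tameExp_pos r); omega⟩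
  rw [powCnt_apply, ← pow_mul, hi, tupleCnt_odd hr hp hp2, if_neg he.ne', ← hi, subCount_cast]
  by_cases h1 : e = 1
  · rw [if_pos (by rw [h1, one_mul, tameExp]), if_pos h1]
  · rw [if_neg, if_neg h1]
    exact fun h => h1 (Nat.eq_of_mul_eq_mul_right (tameExp_pos r) (h.trans (one_mul _).symm))

theorem powCnt_two (hr : 1 ≤ r) (e : ℕ) : powCnt r (2 ^ e) = (twoVal r e : ℝ) := by
  rw [powCnt_apply, ← pow_mul, tupleCnt_two hr, tameExp, if_pos (dvd_mul_left _ _),
    Nat.mul_div_cancel _ (Nat.two_pow_pos _)]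

theorem tame_powCnt (hr : 1 ≤ r) : Tame (powCnt r) 5 ((2 * 2 ^ r : ℝ) ^ 2) := by
  have h1 : (1 : ℝ) ≤ 2 ^ r := one_le_pow₀ one_le_two
  intro p hp e
  rcases eq_or_ne p 2 with rfl | hp2
  · rw [powCnt_two hr]
    refine ⟨fun he => ?_, ?_⟩
    · simp [twoVal, show e ≠ 0 by omega, show e ≠ 2 by omega, show e ≠ 3 by omega,
        show e ≠ 4 by omega]
    · rw [Nat.abs_cast]
      unfold twoVal
      split_ifs <;> push_cast [Nat.cast_sub Nat.one_le_two_pow,
        Nat.cast_sub (show 2 ≤ 2 ^ r from (pow_one 2).symm ▸ Nat.pow_le_pow_right two_pos hr)] <;>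
        nlinarith
  · rw [powCnt_odd hr hp hp2]
    refine ⟨fun he => by rw [if_neg (by omega), if_neg (by omega)], ?_⟩
    split_ifs
    · rw [abs_one]; nlinarith
    · rw [subCount_cast, abs_of_nonneg (by linarith)]; nlinarith
    · rw [abs_zero]; positivity

/-- The correcting factor. -/
def multiCorr (r i : ℕ) : ArithmeticFunction ℝ := powCnt r * (μ : ArithmeticFunction ℝ) ^ i

theorem multiCorr_succ (r i : ℕ) :
    multiCorr r (i + 1) = multiCorr r i * (μ : ArithmeticFunction ℝ) := by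
  rw [multiCorr, multiCorr, pow_succ, mul_assoc]

theorem multiCorr_isMultiplicative (r i : ℕ) : (multiCorr r i).IsMultiplicative :=
  powCnt_isMultiplicative.mul moebius_cast_isMultiplicative.pow

theorem exists_tame (hr : 1 ≤ r) (i : ℕ) : ∃ E M, Tame (multiCorr r i) E M := by
  induction i with
  | zero => exact ⟨5, _, by rw [multiCorr, pow_zero, mul_one]; exact tame_powCnt hr⟩
  | succ i ih =>
    obtain ⟨E, M, h⟩ := ih
    exact ⟨E + 1, 2 * M, multiCorr_succ r i ▸ h.step one_ne_zero isStep_moebius⟩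

theorem multiCorr_prime (hr : 1 ≤ r) {p : ℕ} (hp : p.Prime) (hp2 : p ≠ 2) (i : ℕ) :
    multiCorr r i p = (subCount r : ℝ) - i := by
  induction i with
  | zero =>
    rw [multiCorr, pow_zero, mul_one, Nat.cast_zero, sub_zero]
    conv_lhs => rw [← pow_one p]
    rw [powCnt_odd hr hp hp2, if_neg one_ne_zero, if_pos rfl]
  | succ i ih =>
    have h := step_mul (f := multiCorr r i) one_ne_zero isStep_moebius hp 1
    rw [pow_one, if_pos le_rfl, Nat.sub_self, pow_zero,
      (multiCorr_isMultiplicative r i).map_one, ih] at h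
    rw [multiCorr_succ, h, Nat.cast_succ]
    ring

theorem locSum_multiCorr (hr : 1 ≤ r) {p : ℕ} (hp : p.Prime) (x : ℝ) (i : ℕ) :
    locSum (multiCorr r i) p x = (1 - x) ^ i * locSum (powCnt r) p x := by
  induction i with
  | zero => rw [multiCorr, pow_zero, mul_one, pow_zero, one_mul]
  | succ i ih =>
    obtain ⟨E, M, h⟩ := exists_tame hr i
    rw [multiCorr_succ, locSum_step h one_ne_zero isStep_moebius hp, ih, pow_one, pow_succ]
    ring

theorem summable_multiCorr (hr : 1 ≤ r) :
    Summable fun n : ℕ => |multiCorr r (subCount r) n| / (n : ℝ) ^ (1 : ℝ) := by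
  obtain ⟨E, M, h⟩ := exists_tame hr (subCount r)
  refine summable_of_local (multiCorr_isMultiplicative r _) (r := 2) zero_le_one (by norm_num) h
    fun p hp hp2 e h1 he => ?_
  obtain rfl : e = 1 := by omega
  rw [pow_one, multiCorr_prime hr hp hp2, sub_self]

/-- `∏ (1 - 1/p) ^ q (1 + q/p)`. -/
def multiProduct (r : ℕ) : ℝ :=
  ∏' p : Nat.Primes, (1 - (p : ℝ)⁻¹) ^ subCount r * (1 + subCount r * (p : ℝ)⁻¹)

/-- The value of the series. -/
def multiSeries (r : ℕ) : ℝ :=
  (1 + subCount r * (subCount r + 7) / 16) / (1 + subCount r / 2) * multiProduct r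

theorem prime_inv_mem (p : Nat.Primes) : 0 ≤ (p : ℝ)⁻¹ ∧ (p : ℝ)⁻¹ ≤ 1 / 2 := by
  refine ⟨by positivity, ?_⟩
  rw [one_div]
  exact inv_anti₀ two_pos (by exact_mod_cast p.2.two_le)

theorem multiFactor_pos (p : Nat.Primes) :
    0 < (1 - (p : ℝ)⁻¹) ^ subCount r * (1 + subCount r * (p : ℝ)⁻¹) := by
  obtain ⟨h0, h1⟩ := prime_inv_mem p
  exact mul_pos (pow_pos (by linarith) _)
    (add_pos_of_pos_of_nonneg one_pos (mul_nonneg (Nat.cast_nonneg _) h0))

theorem multiCorr_series (hr : 1 ≤ r) :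
    HasProd (fun p : Nat.Primes => (1 - (p : ℝ)⁻¹) ^ subCount r * (1 + subCount r * (p : ℝ)⁻¹))
      (multiProduct r) ∧
    ∑' n : ℕ, multiCorr r (subCount r) n / (n : ℝ) ^ (1 : ℝ) = multiSeries r := by
  set q : ℝ := (subCount r : ℝ)
  have hq : (0 : ℝ) ≤ q := Nat.cast_nonneg _
  set c := (1 + q / 2) / (1 + q * (q + 7) / 16)
  have h := (hasProd_series (multiCorr_isMultiplicative r (subCount r)) one_pos
    (summable_multiCorr hr)).mul (hasProd_ite_eq (⟨2, Nat.prime_two⟩ : Nat.Primes) c)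
  have e : ∀ p : Nat.Primes, locSum (multiCorr r (subCount r)) p ((p : ℝ) ^ (1 : ℝ))⁻¹ *
      (if p = ⟨2, Nat.prime_two⟩ then c else 1) =
      (1 - (p : ℝ)⁻¹) ^ subCount r * (1 + q * (p : ℝ)⁻¹) := by
    intro p
    rw [locSum_multiCorr hr p.2, locSum_eq_sum (tame_powCnt hr) p.2, Real.rpow_one, mul_assoc]
    congr 1
    rcases eq_or_ne p (⟨2, Nat.prime_two⟩ : Nat.Primes) with rfl | hne
    · rw [if_pos rfl]
      simp only [Finset.sum_range_succ, Finset.range_zero, Finset.sum_empty, powCnt_two hr,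
        twoVal, if_pos, Nat.one_ne_zero, OfNat.ofNat_ne_zero, OfNat.one_ne_ofNat, if_false]
      have hv : 2 ^ r - 2 = subCount r - 1 := by
        unfold subCount
        omega
      norm_num [hv, Nat.cast_sub (subCount_pos hr), c, show (2 ^ r - 1 : ℕ) = subCount r from rfl]
      simp only [q]
      field_simp
      ring
    · rw [if_neg hne, mul_one]
      simp [Finset.sum_range_succ, powCnt_odd hr p.2 (fun e => hne (Subtype.ext e)), q]
  have h' := h.congr_fun fun p => (e p).symm
  have h'' : _ = multiProduct r := h'.tprod_eq.symm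
  refine ⟨h'' ▸ h', ?_⟩
  rw [multiSeries, ← h'']
  simp only [c, q]
  field_simp

theorem multiProduct_pos (hr : 1 ≤ r) : 0 < multiProduct r := by
  refine lt_of_le_of_ne (ge_of_tendsto' (multiCorr_series hr).1 fun s =>
    Finset.prod_nonneg fun p _ => (multiFactor_pos p).le) (Ne.symm ?_)
  rw [multiProduct, show (fun p : Nat.Primes =>
      (1 - (p : ℝ)⁻¹) ^ subCount r * (1 + subCount r * (p : ℝ)⁻¹)) = fun p : Nat.Primes =>
      1 + ((1 - (p : ℝ)⁻¹) ^ subCount r * (1 + subCount r * (p : ℝ)⁻¹) - 1) by funext p; ring]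
  refine tprod_one_add_ne_zero_of_summable (fun p => ?_) ?_
  · rw [add_sub_cancel]; exact (multiFactor_pos p).ne'
  · refine Summable.of_nonneg_of_le (fun _ => norm_nonneg _) (fun p => ?_)
      (((Real.summable_nat_pow_inv.mpr one_lt_two).mul_left
        ((subCount r : ℝ) ^ 2)).comp_injective (Subtype.val_injective (p := Nat.Prime)))
    show ‖_‖ ≤ (subCount r : ℝ) ^ 2 * (((p : ℕ) : ℝ) ^ 2)⁻¹
    rw [← inv_pow, Real.norm_eq_abs]
    obtain ⟨h0, h1⟩ := prime_inv_mem p
    set t := (((p : ℕ) : ℝ))⁻¹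
    set n := subCount r
    have hnt : 0 ≤ 1 + (n : ℝ) * t := by positivity
    have ha : 1 - (n : ℝ) * t ≤ (1 - t) ^ n := by
      have := one_add_mul_le_pow (show -2 ≤ -t by linarith) n
      rwa [mul_neg, ← sub_eq_add_neg, ← sub_eq_add_neg] at this
    have hb : 1 + (n : ℝ) * t ≤ (1 + t) ^ n := one_add_mul_le_pow (by linarith) n
    have hc : (1 - t) ^ n * (1 + t) ^ n ≤ 1 := by
      rw [← mul_pow]
      exact pow_le_one₀ (by nlinarith) (by nlinarith)
    have h2 := mul_le_mul_of_nonneg_right ha hnt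
    have h3 := mul_le_mul_of_nonneg_left hb (pow_nonneg (show 0 ≤ 1 - t by linarith) n)
    rw [abs_le]
    constructor <;> nlinarith

theorem multiSeries_pos (hr : 1 ≤ r) : 0 < multiSeries r :=
  mul_pos (by positivity) (multiProduct_pos hr)

theorem multiCorr_mul_divFun (r i : ℕ) : multiCorr r i * divFun i = powCnt r := by
  rw [multiCorr, divFun_eq, mul_assoc, ← mul_pow, coe_moebius_mul_coe_zeta, one_pow, mul_one]

/-- **The mean value at the powers.** -/
theorem tendsto_powCnt (hr : 1 ≤ r) :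
    Tendsto (fun y => partialSum (powCnt r) y / (y * Real.log y ^ (subCount r - 1))) atTop
      (𝓝 (multiSeries r / (subCount r - 1)!)) := by
  obtain ⟨hlim, C, hC⟩ := divFun_mean (subCount_pos hr)
  have h := mean_convolution (h := multiCorr r (subCount r)) _ hlim hC (summable_multiCorr hr)
  rw [multiCorr_mul_divFun, (multiCorr_series hr).2] at h
  simp only [Real.rpow_one] at h
  convert h using 2
  ring

/-- **The tuples by the product of the conductors.** -/
theorem tendsto_tuples (hr : 1 ≤ r) :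
    Tendsto (fun x => partialSum (tupleCnt r) x /
      (x ^ ((tameExp r : ℝ)⁻¹) * Real.log x ^ (subCount r - 1))) atTop
      (𝓝 (multiSeries r / ((subCount r - 1)! * (tameExp r : ℝ) ^ (subCount r - 1)))) := by
  have hK : (0 : ℝ) < (tameExp r : ℝ) := Nat.cast_pos.mpr (tameExp_pos r)
  have h := ((tendsto_powCnt hr).comp (tendsto_rpow_atTop (inv_pos.mpr hK))).div_const
    ((tameExp r : ℝ) ^ (subCount r - 1))
  rw [div_div] at h
  refine h.congr' ?_
  filter_upwards [eventually_gt_atTop 1] with x hx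
  simp only [Function.comp]
  rw [partialSum_tupleCnt hr (by linarith), Real.log_rpow (by linarith), mul_pow, inv_pow,
    div_div]
  field_simp

end FA.ElementaryAbelianCount
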