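import Fermat.Agent.ElementaryAbelianCount.CyclicMeans
import Fermat.Agent.ElementaryAbelianCount.Fields
import Fermat.Agent.ElementaryAbelianCount.MultiMeans

/-!
# Cyclic fields of prime degree by discriminant

A group of `ℓ` characters consists of the trivial one and `ℓ - 1` with the same conductor `f`, and
the field has discriminant `f ^ (ℓ - 1)`.
-/

set_option autoImplicit false
set_option linter.style.haveILetI false

noncomputable section

open NumberField DirichletCharacter Filter Topology Module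
open FA.AbelianQuartic (partialSum condProd)
open scoped Classical Nat

namespace FA.ElementaryAbelianCount

variable (l : ℕ) [hl : Fact l.Prime]

theorem conductor_pow_dvd {N : ℕ} [NeZero N] (χ : DirichletCharacter ℂ N) (j : ℕ) :
    (χ ^ j).conductor ∣ χ.conductor := by
  conv_lhs => rw [← changeLevel_primitiveCharacter χ, ← map_pow, conductor_changeLevel]
  exact conductor_dvd_level _

theorem mem_zpowers_of_card {N : ℕ} [NeZero N] {H : Subgroup (DirichletCharacter ℂ N)}
    (hH : Nat.card H = l) {χ : DirichletCharacter ℂ N} (hχ : χ ∈ H) (h1 : χ ≠ 1) :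
    Subgroup.zpowers χ = H := by
  have h : Subgroup.zpowers (⟨χ, hχ⟩ : H) = ⊤ :=
    zpowers_eq_top_of_prime_card hH fun e => h1 (congrArg Subtype.val e)
  have := congrArg (Subgroup.map H.subtype) h
  rw [MonoidHom.map_zpowers, ← MonoidHom.range_eq_map, Subgroup.range_subtype] at this
  exact this

omit hl in
theorem card_erase_one {N : ℕ} [NeZero N] {H : Subgroup (DirichletCharacter ℂ N)}
    (hH : Nat.card H = l) :
    ((Finset.univ.filter fun χ => χ ∈ H).erase 1).card = l - 1 := by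
  rw [Finset.card_erase_of_mem (Finset.mem_filter.mpr ⟨Finset.mem_univ _, H.one_mem⟩),
    ← Fintype.card_subtype, ← Nat.card_eq_fintype_card, hH]

/-- **The discriminant is a power of the conductor.** -/
theorem condProd_eq_pow {N : ℕ} [NeZero N] {H : Subgroup (DirichletCharacter ℂ N)}
    (hH : Nat.card H = l) {χ : DirichletCharacter ℂ N} (hχ : χ ∈ H) (h1 : χ ≠ 1) :
    condProd N H = χ.conductor ^ (l - 1) := by
  have hsame : ∀ ψ ∈ H, ψ ≠ 1 → ψ.conductor = χ.conductor := by
    have key : ∀ a b : DirichletCharacter ℂ N, a ∈ H → b ∈ H → a ≠ 1 →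
        b.conductor ∣ a.conductor := fun a b ha hb h => by
      have hmem : b ∈ Subgroup.zpowers a := (mem_zpowers_of_card l hH ha h).symm ▸ hb
      obtain ⟨j, rfl⟩ := mem_powers_iff_mem_zpowers.mpr hmem
      exact conductor_pow_dvd a j
    exact fun ψ hψ h => Nat.dvd_antisymm (key χ ψ hχ hψ h1) (key ψ χ hψ hχ h)
  rw [condProd, ← Finset.mul_prod_erase _ _ (Finset.mem_filter.mpr ⟨Finset.mem_univ _, H.one_mem⟩),
    conductor_one, one_mul, Finset.prod_congr rfl fun ψ hψ => ?_, Finset.prod_const,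
    card_erase_one l hH]
  obtain ⟨hne, hψ'⟩ := Finset.mem_erase.mp hψ
  exact hsame ψ (Finset.mem_filter.mp hψ').2 hne

/-- The Galois fields of degree `l` with small discriminant. -/
def cyclicFields (X : ℕ) : Set (IntermediateField ℚ ℂ) :=
  {F | IsGalois ℚ F ∧ finrank ℚ F = l ∧ ∃ _ : NumberField F, (discr F).natAbs ≤ X}

theorem cyclicFields_eq (X : ℕ) : cyclicFields l X = abelianFields l X := by
  ext F
  refine ⟨fun ⟨hg, hr, hd⟩ => ?_, fun ⟨hr, hab, hd⟩ => ⟨inferInstance, hr, hd⟩⟩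
  haveI : FiniteDimensional ℚ F := Module.finite_of_finrank_pos (hr ▸ hl.out.pos)
  haveI : IsCyclic Gal(F/ℚ) :=
    isCyclic_of_prime_card (p := l) (by rw [IsGalois.card_aut_eq_finrank, hr])
  haveI : IsMulCommutative Gal(F/ℚ) := IsCyclic.isMulCommutative
  exact ⟨hr, ⟨⟩, hd⟩

/-- **Fields and characters.** -/
theorem card_cyclicFields (X : ℕ) (hX : 1 ≤ X) :
    ((l - 1 : ℕ) : ℝ) * (cyclicFields l X).ncard =
      partialSum (cycCnt l) ((X : ℝ) ^ (((l - 1 : ℕ) : ℝ)⁻¹)) - 1 := by
  haveI : NeZero X ! := ⟨Nat.factorial_ne_zero X⟩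
  have hK : l - 1 ≠ 0 := by have := hl.out.two_le; omega
  set Y := ⌊(X : ℝ) ^ (((l - 1 : ℕ) : ℝ)⁻¹)⌋₊
  have hY : ∀ f, f ≤ Y ↔ f ^ (l - 1) ≤ X := fun f => by
    rw [le_floor_root_iff hK (Nat.cast_nonneg X), Nat.floor_natCast]
  have hY1 : 1 ≤ Y := (hY 1).mpr (by rwa [one_pow])
  have hYX : Y ≤ X := (Nat.le_self_pow hK Y).trans ((hY Y).mp le_rfl)
  have hsum := card_conductor_mem l (N := X !) (Finset.Ioc 1 Y) fun d hd =>
    Nat.dvd_factorial (by have := (Finset.mem_Ioc.mp hd).1; omega)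
      ((Finset.mem_Ioc.mp hd).2.trans hYX)
  rw [partialSum, ← Finset.Ioc_union_Ioc_eq_Ioc zero_le_one hY1,
    Finset.sum_union (Finset.Ioc_disjoint_Ioc_of_le le_rfl), show Finset.Ioc 0 1 = {1} from rfl,
    Finset.sum_singleton, (cycCnt_isMultiplicative l).map_one, add_sub_cancel_left, ← hsum,
    cyclicFields_eq, ncard_abelianFields (N := X !) fun d h0 h =>
      Nat.dvd_factorial (Nat.pos_of_ne_zero h0) h, ← Nat.cast_mul, Nat.cast_inj,
    Nat.card_eq_fintype_card, Fintype.card_subtype, mul_comm, ← smul_eq_mul,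
    ← Finset.sum_const, Finset.card_eq_sum_card_fiberwise (f := Subgroup.zpowers)
      (t := charGroups X ! l X) fun χ hχ => ?_]
  · refine Finset.sum_congr rfl fun H hH => ?_
    obtain ⟨hc, hD⟩ := (mem_charGroups _).mp hH
    rw [← card_erase_one l hc]
    refine congrArg Finset.card ?_
    ext χ
    simp only [Finset.mem_filter, Finset.mem_univ, true_and, Finset.mem_erase, Finset.mem_Ioc]
    constructor
    · rintro ⟨h1, hmem⟩
      refine ⟨⟨?_, ?_, (hY _).mpr ?_⟩, mem_zpowers_of_card l hc hmem h1⟩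
      · have : (⟨χ, hmem⟩ : H) ^ Nat.card H = 1 := pow_card_eq_one'
        rw [hc] at this
        exact congrArg Subtype.val this
      · exact lt_of_le_of_ne (Nat.one_le_iff_ne_zero.mpr (conductor_ne_zero _))
          fun e => h1 (eq_one_iff_conductor_eq_one.mpr e.symm)
      · rwa [← condProd_eq_pow l hc hmem h1]
    · rintro ⟨⟨-, hlt, -⟩, rfl⟩
      exact ⟨fun e => by simp [e, conductor_one] at hlt, Subgroup.mem_zpowers _⟩
  · simp only [Finset.coe_filter, Set.mem_ofPred_eq, Finset.mem_univ, true_and,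
      Finset.mem_Ioc] at hχ
    obtain ⟨hp, hlt, hle⟩ := hχ
    have h1 : χ ≠ 1 := fun e => by simp [e, conductor_one] at hlt
    have hc : Nat.card (Subgroup.zpowers χ) = l := by
      rw [Nat.card_zpowers, orderOf_eq_prime hp h1]
    refine (mem_charGroups _).mpr ⟨hc, ?_⟩
    rw [condProd_eq_pow l hc (Subgroup.mem_zpowers χ) h1]
    exact (hY _).mp hle

/-- **Cyclic fields of prime degree.** -/
theorem tendsto_cyclicFields (hl2 : l ≠ 2) (K : Type*) [Field K] [NumberField K]
    [IsCyclotomicExtension {l} ℚ K] :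
    Tendsto (fun X : ℕ => ((cyclicFields l X).ncard : ℝ) / (X : ℝ) ^ (1 / ((l : ℝ) - 1))) atTop
      (𝓝 (dedekindZeta_residue K * cycProd l / ((l : ℝ) - 1))) := by
  have hl1 : 1 < l := hl.out.one_lt
  have hcast : ((l - 1 : ℕ) : ℝ) = (l : ℝ) - 1 := by rw [Nat.cast_sub hl1.le, Nat.cast_one]
  have hpos : (0 : ℝ) < (l : ℝ) - 1 := sub_pos.mpr (Nat.one_lt_cast.mpr hl1)
  have hroot : Tendsto (fun X : ℕ => (X : ℝ) ^ ((l : ℝ) - 1)⁻¹) atTop atTop :=
    (tendsto_rpow_atTop (inv_pos.mpr hpos)).comp tendsto_natCast_atTop_atTop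
  have h := (((tendsto_cycCnt l hl2 K).comp hroot).sub hroot.inv_tendsto_atTop).div_const
    ((l : ℝ) - 1)
  rw [sub_zero] at h
  refine h.congr' ?_
  filter_upwards [eventually_ge_atTop 1] with X hX
  have hc := card_cyclicFields l X hX
  rw [hcast] at hc
  simp only [Function.comp, Pi.inv_apply, one_div]
  rw [← one_div (_ ^ _), div_sub_div_same, ← hc, mul_div_assoc, mul_div_cancel_left₀ _ hpos.ne']

end FA.ElementaryAbelianCount
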