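import Fermat.Agent.ElementaryAbelianCount.CharSteps

/-!
# The mean value of the characters of order `ℓ` by conductor

The count is `h * a`, `a` counting the ideals of `ℚ(μ_ℓ)`, and `h` vanishes at the primes but `ℓ`;
so the characters of conductor at most `x` are `~ R ∏_p (local factor) x`.
-/

set_option autoImplicit false
set_option linter.style.haveILetI false

noncomputable section

open ArithmeticFunction DirichletCharacter Filter Topology NumberField
open FA.AbelianQuartic (partialSum mean_convolution summable_of_local_except hasProd_series locSum)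
open scoped Classical

namespace FA.ElementaryAbelianCount

variable (l : ℕ) [hl : Fact l.Prime]

/-- `(1 - p⁻ᶠ) ^ ((ℓ - 1) / f) (1 + [f = 1] (ℓ - 1) / p)`, and `(1 - 1/ℓ) (1 + (ℓ - 1) / ℓ ^ 2)`
at `ℓ`. -/
def cycFactor (p : ℕ) : ℝ :=
  if p = l then (1 - (l : ℝ)⁻¹) * (1 + ((l : ℝ) - 1) * ((l : ℝ)⁻¹) ^ 2)
  else (1 - ((p : ℝ)⁻¹) ^ orderOf (p : ZMod l)) ^ ((l - 1) / orderOf (p : ZMod l)) *
    (1 + if p % l = 1 then ((l : ℝ) - 1) * (p : ℝ)⁻¹ else 0)

/-- The product of the local factors. -/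
def cycProd : ℝ := ∏' p : Nat.Primes, cycFactor l p

theorem summable_cycCorr (hl2 : l ≠ 2) :
    Summable fun n : ℕ => |cycCorr l n| / (n : ℝ) ^ (1 : ℝ) := by
  refine summable_of_local_except (cycCorr_isMultiplicative l) (r := 2) zero_le_one (by norm_num)
    (tame_cycCorr l hl2) hl.out.one_lt.le fun p hp hpl e h1 he => ?_
  obtain rfl : e = 1 := by omega
  rw [pow_one, cycCorr_prime l hl2 hp hpl]

theorem hasProd_cycFactor (hl2 : l ≠ 2) :
    HasProd (fun p : Nat.Primes => cycFactor l p) (∑' n : ℕ, cycCorr l n / (n : ℝ) ^ (1 : ℝ)) := by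
  refine (hasProd_series (cycCorr_isMultiplicative l) one_pos (summable_cycCorr l hl2)).congr_fun
    fun p => ?_
  have hp := p.2
  rw [locSum_cycCorr l hl2 hp, Real.rpow_one, Finset.sum_range_succ, Finset.sum_range_succ,
    Finset.sum_range_one, pow_zero, pow_zero, pow_one, (cycCnt_isMultiplicative l).map_one]
  have h0 := cycCnt_prime_pow l hl2 hp 0
  have h1 := cycCnt_prime_pow l hl2 hp 1
  rw [zero_add, pow_one] at h0
  rw [h0, h1]
  unfold cycFactor charFactor
  by_cases hpl : (p : ℕ) = l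
  · simp [hpl]
  · simp [hpl]

theorem order_facts {p : ℕ} (hp : p.Prime) (hpl : p ≠ l) :
    0 < orderOf (p : ZMod l) ∧ (p % l ≠ 1 → 2 ≤ orderOf (p : ZMod l)) ∧
      (p % l = 1 → orderOf (p : ZMod l) = 1) := by
  have hu : IsUnit (p : ZMod l) :=
    (ZMod.isUnit_iff_coprime p l).mpr ((Nat.coprime_primes hp hl.out).mpr hpl)
  have hmod : (p : ZMod l) = 1 ↔ p % l = 1 := by
    rw [← Nat.cast_one, ZMod.natCast_eq_natCast_iff', Nat.mod_eq_of_lt hl.out.one_lt]
  have hpos : 0 < orderOf (p : ZMod l) := by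
    rw [← hu.unit_spec, orderOf_units]; exact orderOf_pos _
  refine ⟨hpos, fun h => ?_, fun h => by rw [orderOf_eq_one_iff, hmod]; exact h⟩
  have : orderOf (p : ZMod l) ≠ 1 := fun e => h (hmod.mp (orderOf_eq_one_iff.mp e))
  omega

theorem cycFactor_bounds (p : Nat.Primes) :
    0 < cycFactor l p ∧ |cycFactor l p - 1| ≤ 2 * (l : ℝ) ^ 2 * (((p : ℕ) : ℝ) ^ 2)⁻¹ := by
  have hp := p.2
  have hl1 : (2 : ℝ) ≤ l := Nat.ofNat_le_cast.mpr hl.out.two_le
  rw [← inv_pow]
  set t := (((p : ℕ) : ℝ))⁻¹ with ht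
  have ht0 : 0 < t := by have := hp.pos; positivity
  have ht1 : t ≤ 1 / 2 := by
    rw [ht, one_div]
    exact inv_anti₀ two_pos (by exact_mod_cast hp.two_le)
  unfold cycFactor
  split_ifs with hpl h1
  · have e : t = (l : ℝ)⁻¹ := by rw [ht, hpl]
    rw [← e]
    have hlt : (l : ℝ) * t = 1 := by rw [e]; field_simp
    have hkey : ((l : ℝ) - 1) * t ^ 2 = t - t ^ 2 := by
      rw [sub_mul, one_mul, pow_two, ← mul_assoc, hlt, one_mul]
    rw [hkey]
    refine ⟨mul_pos (by linarith) (by nlinarith), ?_⟩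
    have hr : 2 * (l : ℝ) ^ 2 * t ^ 2 = 2 := by
      rw [mul_assoc, ← mul_pow, hlt, one_pow, mul_one]
    rw [hr, abs_le]
    constructor <;> nlinarith
  · obtain ⟨-, -, hord⟩ := order_facts l hp hpl
    rw [hord h1, pow_one, Nat.div_one, ← ht, ← Nat.cast_one (R := ℝ),
      ← Nat.cast_sub hl.out.one_lt.le, Nat.cast_one]
    set n := l - 1
    have hn : (n : ℝ) ≤ l := Nat.cast_le.mpr (Nat.sub_le l 1)
    refine ⟨mul_pos (pow_pos (by linarith) _) (by positivity), ?_⟩
    have ha : 1 - (n : ℝ) * t ≤ (1 - t) ^ n := by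
      have := one_add_mul_le_pow (show -2 ≤ -t by linarith) n
      rwa [mul_neg, ← sub_eq_add_neg, ← sub_eq_add_neg] at this
    have hb : 1 + (n : ℝ) * t ≤ (1 + t) ^ n := one_add_mul_le_pow (by linarith) n
    have hc : (1 - t) ^ n * (1 + t) ^ n ≤ 1 := by
      rw [← mul_pow]
      exact pow_le_one₀ (by nlinarith) (by nlinarith)
    have h2 := mul_le_mul_of_nonneg_right ha (show 0 ≤ 1 + (n : ℝ) * t by positivity)
    have h3 := mul_le_mul_of_nonneg_left hb (pow_nonneg (show 0 ≤ 1 - t by linarith) n)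
    have h4 : (n : ℝ) ^ 2 * t ^ 2 ≤ (l : ℝ) ^ 2 * t ^ 2 :=
      mul_le_mul_of_nonneg_right (pow_le_pow_left₀ (Nat.cast_nonneg n) hn 2) (sq_nonneg t)
    rw [abs_le]
    constructor <;> nlinarith [sq_nonneg ((l : ℝ) * t)]
  · obtain ⟨-, hge, -⟩ := order_facts l hp hpl
    rw [add_zero, mul_one, ← ht]
    set f := orderOf ((p : ℕ) : ZMod l)
    have hu : t ^ f ≤ t ^ 2 := pow_le_pow_of_le_one ht0.le (by linarith) (hge h1)
    have h4 : t ^ 2 ≤ 1 / 4 := by nlinarith
    have hu0 : 0 ≤ t ^ f := pow_nonneg ht0.le _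
    refine ⟨pow_pos (by linarith) _, ?_⟩
    set m := (l - 1) / f
    have hm : (m : ℝ) ≤ l := Nat.cast_le.mpr ((Nat.div_le_self _ _).trans (Nat.sub_le l 1))
    have ha : 1 - (m : ℝ) * t ^ f ≤ (1 - t ^ f) ^ m := by
      have := one_add_mul_le_pow (show -2 ≤ -(t ^ f) by linarith) m
      rwa [mul_neg, ← sub_eq_add_neg, ← sub_eq_add_neg] at this
    have hb : (1 - t ^ f) ^ m ≤ 1 := pow_le_one₀ (by linarith) (by linarith)
    have h5 : (m : ℝ) * t ^ f ≤ 2 * (l : ℝ) ^ 2 * t ^ 2 :=
      mul_le_mul (hm.trans (by nlinarith)) hu hu0 (by positivity)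
    rw [abs_le]
    constructor <;> linarith

theorem cycProd_pos (hl2 : l ≠ 2) : 0 < cycProd l := by
  refine lt_of_le_of_ne ?_ (Ne.symm ?_)
  · rw [cycProd, (hasProd_cycFactor l hl2).tprod_eq]
    exact ge_of_tendsto' (hasProd_cycFactor l hl2) fun s =>
      Finset.prod_nonneg fun p _ => (cycFactor_bounds l p).1.le
  rw [cycProd, show (fun p : Nat.Primes => cycFactor l p) = fun p : Nat.Primes =>
      1 + (cycFactor l p - 1) by funext p; ring]
  refine tprod_one_add_ne_zero_of_summable (fun p => ?_) ?_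
  · rw [add_sub_cancel]; exact (cycFactor_bounds l p).1.ne'
  · exact Summable.of_nonneg_of_le (fun _ => norm_nonneg _)
      (fun p => (Real.norm_eq_abs _).trans_le (cycFactor_bounds l p).2)
      (((Real.summable_nat_pow_inv.mpr one_lt_two).mul_left
        (2 * (l : ℝ) ^ 2)).comp_injective (Subtype.val_injective (p := Nat.Prime)))

/-- **The characters of order `l` by conductor.** -/
theorem tendsto_cycCnt (hl2 : l ≠ 2) (K : Type*) [Field K] [NumberField K]
    [IsCyclotomicExtension {l} ℚ K] :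
    Tendsto (fun x => partialSum (cycCnt l) x / x) atTop
      (𝓝 (dedekindZeta_residue K * cycProd l)) := by
  obtain ⟨C, hC⟩ := exists_bound_idealCnt K
  have h := mean_convolution (h := cycCorr l) (b := idealCnt K) (α := 1) 0 (C := C)
    (by simpa using tendsto_idealCnt K) (fun x hx => by simpa using hC x hx)
    (summable_cycCorr l hl2)
  rw [cycCorr_mul_idealCnt l K, ← (hasProd_cycFactor l hl2).tprod_eq] at h
  simpa [cycProd] using h

end FA.ElementaryAbelianCount
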