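import Fermat.Agent.ElementaryAbelianCount.Bases
import Fermat.Agent.ElementaryAbelianCount.MultiMeans

/-!
# Fields with group `(ℤ/2) ^ r` by discriminant

The tuples with a relation are negligible, so the fields are asymptotic to the tuples divided by
the number of ordered bases of `(ℤ/2) ^ r`.
-/

set_option autoImplicit false
set_option linter.style.haveILetI false

noncomputable section

open NumberField Filter Topology Module
open FA.AbelianQuartic (partialSum le_floor_sqrt_iff condProd)
open scoped Classical Nat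

namespace FA.ElementaryAbelianCount

variable {r : ℕ}

/-- The fields of degree `2 ^ r` with group killed by two and small discriminant. -/
def multiFields (r X : ℕ) : Set (IntermediateField ℚ ℂ) :=
  {F | F ∈ abelianFields (2 ^ r) X ∧ ∀ τ : Gal(F/ℚ), τ ^ 2 = 1}

/-- The number of ordered bases of `(ℤ/2) ^ r`. -/
def baseCount (r : ℕ) : ℕ := ∏ i : Fin r, (2 ^ r - 2 ^ (i : ℕ))

theorem baseCount_pos (r : ℕ) : 0 < baseCount r :=
  Finset.prod_pos fun i _ => Nat.sub_pos_of_lt (Nat.pow_lt_pow_right one_lt_two i.2)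

/-- The tuples with a relation. -/
def relCount (r X : ℕ) : ℕ :=
  Nat.card {v : CharTuple r X ! //
    (Killed v ∧ tupleCond v ≤ X) ∧ ¬Function.Injective (comb v)}

theorem tupleCond_mem_iff {N : ℕ} [NeZero N] (v : CharTuple r N) (X : ℕ) :
    tupleCond v ∈ Finset.Ioc 0 X ↔ tupleCond v ≤ X := by
  simp [Finset.mem_Ioc, tupleCond_pos v]

theorem card_killed_le (X Y : ℕ) (h : Y ≤ X) :
    (Nat.card {v : CharTuple r X ! // Killed v ∧ tupleCond v ≤ Y} : ℝ) =
      partialSum (tupleCnt r) (Y : ℝ) := by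
  haveI : NeZero X ! := ⟨Nat.factorial_ne_zero X⟩
  rw [Nat.card_congr (Equiv.subtypeEquivRight fun v : CharTuple r X ! =>
      show Killed v ∧ tupleCond v ≤ Y ↔ Killed v ∧ tupleCond v ∈ Finset.Ioc 0 Y by
        rw [tupleCond_mem_iff]),
    card_tupleCond_mem _ fun d hd => Nat.dvd_factorial (Finset.mem_Ioc.mp hd).1
      ((Finset.mem_Ioc.mp hd).2.trans h), partialSum, Nat.floor_natCast]

/-- **Fields and tuples.** -/
theorem card_multiFields (r X : ℕ) :
    (baseCount r : ℝ) * (multiFields r X).ncard + relCount r X =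
      partialSum (tupleCnt r) (X : ℝ) := by
  haveI : NeZero X ! := ⟨Nat.factorial_ne_zero X⟩
  rw [multiFields, ncard_exponent (N := X !) 2 fun d h0 h =>
    Nat.dvd_factorial (Nat.pos_of_ne_zero h0) h, ← card_killed_le X X le_rfl]
  norm_cast
  set T := Finset.univ.filter fun v : CharTuple r X ! => Killed v ∧ tupleCond v ≤ X
  have hT : Nat.card {v : CharTuple r X ! // Killed v ∧ tupleCond v ≤ X} = T.card := by
    rw [Nat.card_eq_fintype_card, Fintype.card_subtype]
  have hrel : relCount r X = (T.filter fun v => ¬Function.Injective (comb v)).card := by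
    rw [relCount, Nat.card_eq_fintype_card, Fintype.card_subtype, Finset.filter_filter]
  rw [hT, hrel,
    ← Finset.card_filter_add_card_filter_not (s := T) (p := fun v => Function.Injective (comb v))]
  congr 1
  rw [Finset.card_eq_sum_card_fiberwise (f := spanGroup)
    (t := (charGroups X ! (2 ^ r) X).filter fun H => ∀ χ ∈ H, χ ^ 2 = 1) fun v hv => ?_]
  · rw [mul_comm, ← smul_eq_mul, ← Finset.sum_const]
    refine Finset.sum_congr rfl fun H hH => ?_
    obtain ⟨hH1, h2⟩ := Finset.mem_filter.mp hH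
    obtain ⟨hc, hD⟩ := (mem_charGroups _).mp hH1
    rw [baseCount, ← card_bases hc h2, Nat.card_eq_fintype_card, Fintype.card_subtype,
      Finset.filter_filter, Finset.filter_filter]
    refine congrArg Finset.card (Finset.filter_congr fun v _ => ?_)
    constructor
    · rintro ⟨hk, hi, rfl⟩
      exact ⟨⟨hk, by rwa [← condProd_spanGroup hk hi]⟩, hi, rfl⟩
    · rintro ⟨⟨hk, -⟩, hi, hs⟩
      exact ⟨hk, hi, hs⟩
  · obtain ⟨hvT, hi⟩ := Finset.mem_filter.mp hv
    obtain ⟨hk, hd⟩ := (Finset.mem_filter.mp hvT).2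
    exact Finset.mem_filter.mpr ⟨(mem_charGroups _).mpr ⟨card_spanGroup hk hi,
      (condProd_spanGroup hk hi).trans_le hd⟩, killed_mem_spanGroup hk⟩

theorem relCount_le (s X : ℕ) :
    (relCount (s + 1) X : ℝ) ≤ 2 ^ (s + 1) *
      if s = 0 then 1 else partialSum (tupleCnt s) (Real.sqrt X) := by
  haveI : NeZero X ! := ⟨Nat.factorial_ne_zero X⟩
  have h := card_relation_le (N := X !) s X
  have h' : (relCount (s + 1) X : ℝ) ≤ 2 ^ (s + 1) *
      (Nat.card {u : CharTuple s X ! // Killed u ∧ tupleCond u ≤ Nat.sqrt X} : ℝ) := by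
    exact_mod_cast h
  refine h'.trans (mul_le_mul_of_nonneg_left ?_ (by positivity))
  split_ifs with hs
  · subst hs
    exact_mod_cast Finite.card_le_one_iff_subsingleton.mpr inferInstance
  · rw [card_killed_le X _ (Nat.sqrt_le_self X), partialSum, partialSum, Nat.floor_natCast,
      Real.nat_floor_real_sqrt_eq_nat_sqrt]

/-- **The tuples with a relation are negligible.** -/
theorem tendsto_relCount (hr : 1 ≤ r) :
    Tendsto (fun X : ℕ => (relCount r X : ℝ) /
      ((X : ℝ) ^ ((tameExp r : ℝ)⁻¹) * Real.log X ^ (subCount r - 1))) atTop (𝓝 0) := by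
  obtain ⟨s, rfl⟩ : ∃ s, r = s + 1 := ⟨r - 1, by omega⟩
  set D := fun X : ℕ => (X : ℝ) ^ ((tameExp (s + 1) : ℝ)⁻¹) *
    Real.log X ^ (subCount (s + 1) - 1)
  have hD : ∀ᶠ X : ℕ in atTop, 0 < D X := by
    filter_upwards [eventually_ge_atTop 2] with X hX
    have : (1 : ℝ) < X := Nat.one_lt_cast.mpr hX
    exact mul_pos (Real.rpow_pos_of_pos (by linarith) _) (pow_pos (Real.log_pos this) _)
  refine squeeze_zero' (g := fun X : ℕ => 2 ^ (s + 1) *
    ((if s = 0 then 1 else partialSum (tupleCnt s) (Real.sqrt X)) / D X)) ?_ ?_ ?_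
  · filter_upwards [hD] with X hX
    exact div_nonneg (Nat.cast_nonneg _) hX.le
  · filter_upwards [hD] with X hX
    rw [← mul_div_assoc]
    exact div_le_div_of_nonneg_right (relCount_le s X) hX.le
  rw [← mul_zero ((2 : ℝ) ^ (s + 1))]
  refine Tendsto.const_mul _ ?_
  rcases Nat.eq_zero_or_pos s with rfl | hs
  · simp only [if_true, D, tameExp, subCount]
    norm_num
    exact tendsto_natCast_atTop_atTop.inv_tendsto_atTop
  simp only [if_neg hs.ne']
  have hsqrt : Tendsto (fun X : ℕ => Real.sqrt X) atTop atTop :=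
    Real.tendsto_sqrt_atTop.comp tendsto_natCast_atTop_atTop
  have hlog : Tendsto (fun X : ℕ => (Real.log X ^ (2 ^ s))⁻¹) atTop (𝓝 0) :=
    ((tendsto_pow_atTop (Nat.two_pow_pos s).ne').comp
      (Real.tendsto_log_atTop.comp tendsto_natCast_atTop_atTop)).inv_tendsto_atTop
  have h := (((tendsto_tuples hs).comp hsqrt).mul_const
    ((1 / 2 : ℝ) ^ (subCount s - 1))).mul hlog
  rw [mul_zero] at h
  refine h.congr' ?_
  filter_upwards [eventually_ge_atTop 2] with X hX
  have hX1 : (1 : ℝ) < X := Nat.one_lt_cast.mpr hX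
  have hK : (tameExp (s + 1) : ℝ) = 2 * tameExp s := by
    rw [tameExp, tameExp, show s + 1 - 1 = s - 1 + 1 by omega]
    push_cast
    ring
  have hq : subCount (s + 1) - 1 = subCount s - 1 + 2 ^ s := by
    have := subCount_pos hs
    unfold subCount at *
    omega
  simp only [Function.comp, D]
  rw [Real.log_sqrt (by linarith), Real.sqrt_eq_rpow, ← Real.rpow_mul (by linarith), hK, hq,
    pow_add, mul_inv, show (1 / 2 : ℝ) * (tameExp s : ℝ)⁻¹ = 2⁻¹ * (tameExp s : ℝ)⁻¹ by norm_num,
    div_pow, div_pow, one_pow]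
  field_simp

/-- **Fields with group `(ℤ/2) ^ r`.** -/
theorem tendsto_multiFields (hr : 1 ≤ r) :
    Tendsto (fun X : ℕ => ((multiFields r X).ncard : ℝ) /
      ((X : ℝ) ^ ((tameExp r : ℝ)⁻¹) * Real.log X ^ (subCount r - 1))) atTop
      (𝓝 (multiSeries r /
        ((subCount r - 1)! * (tameExp r : ℝ) ^ (subCount r - 1) * baseCount r))) := by
  have h := (((tendsto_tuples hr).comp tendsto_natCast_atTop_atTop).sub
    (tendsto_relCount hr)).div_const (baseCount r : ℝ)
  rw [sub_zero, div_div] at h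
  refine h.congr fun X => ?_
  have hG : (baseCount r : ℝ) ≠ 0 := Nat.cast_ne_zero.mpr (baseCount_pos r).ne'
  simp only [Function.comp]
  rw [← card_multiFields, div_sub_div_same, add_sub_cancel_right, mul_div_assoc,
    mul_div_cancel_left₀ _ hG]

end FA.ElementaryAbelianCount
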